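/-
GATE-B / B10' (p-new ⟹ strict ordinary at `p`), seam file (helper30): **the connected package on
`J₀(N)[p^k]` with its subgroup `W = M⁰_{p^k}` EXPLICIT.**

`GS/Top/HGeom.connPackage_of_hasCE` (S33 closure, frozen) returns `∃ W, ConnPackage … W`: enough for
S33, but the `p`-new argument has to state `(τ² − 1)(t₀ x) ∈ W` for the SAME `W`, so the witness
must be named.  This file names it:

* `M0tors A h k`            : `M⁰_{p^k}` as a subgroup of `Submodule.torsionBy ℤ (JZero N) (p^k)`;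
* `mem_M0tors_iff`          : `w ∈ M0tors A h k ↔ (w : JZero N) ∈ M0mod N A h (p^k)`;
* `connPackage_M0tors`      : helper79's `ConnPackage I_A D_A (torsAct N (p^k)) (M0tors A h k)` from the
                              level-one binder `hce` (same proof as `HGeom.connPackage_of_hasCE`);
* `connPackage_M0tors_of_frameNode`, `connPackage_M0tors_all` : the binder `hce` discharged by the
                              frame node (`FramePlug.hasCE_of_frameNode`, `FrameNodeAll.frameNode_all`):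
                              no hypothesis left for `p ≥ 5` (for `p = 3` the side condition `2 ∣ N`).
-/
import Fermat.Agent.GS.Top.HGeom
import Fermat.Agent.GS.Top.FrameNodeAll

set_option autoImplicit false
set_option linter.unusedSectionVars false

open CuspForm ModularCurve IsLocalRing

namespace Fermat.Agent.GB.B10.ConnM0

open Fermat.Agent.GS.Alg.Transfer Fermat.Agent.GS.Old Fermat.Agent.GS.F
open Fermat.Agent.GK.AL AlgebraicCurve Fermat.Agent.GS.Top.HGeom

local notation "Qb" => AlgebraicClosure ℚ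
local notation "GQ" => (AlgebraicClosure ℚ ≃ₐ[ℚ] AlgebraicClosure ℚ)

variable {p : ℕ} {N : ℕ} [NeZero N]

/-- `M⁰_{p^k}` inside `J₀(N)[p^k]` (the subtype used by `GH/Top.torsAct`). -/
noncomputable def M0tors (A : ValuationSubring Qb) (h : ExactDvd p N) (k : ℕ) :
    AddSubgroup ↥(Submodule.torsionBy ℤ (JZero N) ((p : ℤ) ^ k)) :=
  (M0fam A h k).comap (Submodule.torsionBy ℤ (JZero N) ((p : ℤ) ^ k)).subtype.toAddMonoidHom

theorem mem_M0tors_iff_fam (A : ValuationSubring Qb) (h : ExactDvd p N) (k : ℕ)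
    (w : ↥(Submodule.torsionBy ℤ (JZero N) ((p : ℤ) ^ k))) :
    w ∈ M0tors A h k ↔ (w : JZero N) ∈ M0fam A h k := Iff.rfl

/-- membership in `M0tors` is membership of the underlying point in helper30's `M0mod` at the
modulus `p ^ k`. -/
theorem mem_M0tors_iff (A : ValuationSubring Qb) (h : ExactDvd p N) (k : ℕ) [NeZero (p ^ k)]
    (w : ↥(Submodule.torsionBy ℤ (JZero N) ((p : ℤ) ^ k))) :
    w ∈ M0tors A h k ↔ (w : JZero N) ∈ M0mod N A h (p ^ k) := Iff.rfl

/-- every point of `M⁰_{p^k}` is `p^k`-torsion, so it defines a point of `M0tors`. -/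
theorem mem_torsionBy_of_mem_M0mod (A : ValuationSubring Qb) (h : ExactDvd p N) (k : ℕ)
    [NeZero (p ^ k)] {x : JZero N} (hx : x ∈ M0mod N A h (p ^ k)) :
    x ∈ Submodule.torsionBy ℤ (JZero N) ((p : ℤ) ^ k) := by
  rw [Submodule.mem_torsionBy_iff]
  have h1 : ((p ^ k : ℕ) : ℤ) • x = 0 := smul_eq_zero_of_mem_M0mod (h := h) hx
  rwa [Nat.cast_pow] at h1

/-- **the connected package on `J₀(N)[p^k]`, for the named subgroup `M⁰_{p^k}`.** -/
theorem connPackage_M0tors (A : ValuationSubring Qb) (hA : A.LiesOverPrime p)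
    (h : ExactDvd p N)
    (hce : HasCE (↑(A.inertiaSubgroupIn ℚ) : Set GQ) (fun (σ : GQ) (x : JZero N) => σ • x)
      (@M0mod N _ A p h p ⟨h.prime.ne_zero⟩)) (k : ℕ) :
    ConnPackage (↑(A.inertiaSubgroupIn ℚ) : Set GQ) (↑(A.decompositionSubgroup ℚ) : Set GQ)
      (fun (σ : GQ) (x : ↥(Submodule.torsionBy ℤ (JZero N) ((p : ℤ) ^ k))) =>
        Fermat.Agent.GH.Top.torsAct N ((p : ℤ) ^ k) σ x) (M0tors A h k) := by
  have i0 : NeZero p := ⟨h.prime.ne_zero⟩
  have ik : NeZero (p ^ k) := ⟨pow_ne_zero _ h.prime.ne_zero⟩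
  have hfwd : ∀ σ ∈ (↑(A.decompositionSubgroup ℚ) : Set GQ), ∀ x ∈ M0fam A h k,
      σ • x ∈ M0fam A h k := fun σ hσ x hx => smul_mem_M0mod (h := h) hσ hx
  refine ⟨?_, ?_, ?_⟩
  · -- `D`-stability, iff form
    intro σ hσ w
    constructor
    · intro hw
      have h1 : σ • (w : JZero N) ∈ M0fam A h k := hw
      have h2 := hfwd σ⁻¹ (inv_mem hσ) _ h1
      rw [inv_smul_smul] at h2
      exact h2
    · intro hw
      exact hfwd σ hσ _ hw
  · -- (U)
    intro σ hσ u
    show ((Fermat.Agent.GH.Top.torsAct N ((p : ℤ) ^ k) σ u - u :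
      ↥(Submodule.torsionBy ℤ (JZero N) ((p : ℤ) ^ k))) : JZero N) ∈ M0fam A h k
    rw [AddSubgroupClass.coe_sub, Fermat.Agent.GH.Top.coe_torsAct]
    exact smul_sub_mem_M0mod_torsionBy (h := h) hA k hσ u.2
  · -- (CE)
    intro N' hN' w hw hwN'
    have hCE := hasCE_M0fam A h hce k
    let N'' : AddSubgroup (JZero N) :=
      N'.map (Submodule.torsionBy ℤ (JZero N) ((p : ℤ) ^ k)).subtype.toAddMonoidHom
    have hmem : (w : JZero N) ∈ N'' := by
      refine hCE N'' ?_ (w : JZero N) hw ?_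
      · rintro σ hσ _ ⟨u, hu, rfl⟩
        exact ⟨_, hN' σ hσ u hu, rfl⟩
      · intro σ hσ
        exact ⟨_, hwN' σ hσ, rfl⟩
    obtain ⟨w', hw', hww'⟩ := hmem
    have : w' = w := Subtype.ext hww'
    rw [← this]
    exact hw'

/-- the same with the binder discharged by the frame node at `(N, A)`. -/
theorem connPackage_M0tors_of_frameNode (hp2 : p ≠ 2) (h : ExactDvd p N)
    (hF : Fermat.Agent.GS.Top.FramePlug.FrameNode p N h)
    (A : ValuationSubring Qb) (hA : A.LiesOverPrime p) (k : ℕ) :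
    ConnPackage (↑(A.inertiaSubgroupIn ℚ) : Set GQ) (↑(A.decompositionSubgroup ℚ) : Set GQ)
      (fun (σ : GQ) (x : ↥(Submodule.torsionBy ℤ (JZero N) ((p : ℤ) ^ k))) =>
        Fermat.Agent.GH.Top.torsAct N ((p : ℤ) ^ k) σ x) (M0tors A h k) :=
  connPackage_M0tors A hA h
    (Fermat.Agent.GS.Top.FramePlug.hasCE_of_frameNode hp2 h hF A hA) k

/-- **binder-free form**: `p ∥ N`, `p` odd, and `2 ∣ N` when `p = 3`. -/
theorem connPackage_M0tors_all (hp2 : p ≠ 2) (h : ExactDvd p N) (hside : p = 3 → 2 ∣ N)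
    (A : ValuationSubring Qb) (hA : A.LiesOverPrime p) (k : ℕ) :
    ConnPackage (↑(A.inertiaSubgroupIn ℚ) : Set GQ) (↑(A.decompositionSubgroup ℚ) : Set GQ)
      (fun (σ : GQ) (x : ↥(Submodule.torsionBy ℤ (JZero N) ((p : ℤ) ^ k))) =>
        Fermat.Agent.GH.Top.torsAct N ((p : ℤ) ^ k) σ x) (M0tors A h k) :=
  connPackage_M0tors_of_frameNode hp2 h
    (Fermat.Agent.GS.Top.FrameNodeAll.frameNode_all p N h hp2 hside) A hA k

/-- (CE) at every level for the point group itself (sometimes more convenient than the subtype). -/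
theorem hasCE_M0fam_all (hp2 : p ≠ 2) (h : ExactDvd p N) (hside : p = 3 → 2 ∣ N)
    (A : ValuationSubring Qb) (hA : A.LiesOverPrime p) (k : ℕ) :
    HasCE (↑(A.inertiaSubgroupIn ℚ) : Set GQ) (fun (σ : GQ) (x : JZero N) => σ • x)
      (M0fam A h k) :=
  hasCE_M0fam A h (Fermat.Agent.GS.Top.FramePlug.hasCE_of_frameNode hp2 h
    (Fermat.Agent.GS.Top.FrameNodeAll.frameNode_all p N h hp2 hside) A hA) k

end Fermat.Agent.GB.B10.ConnM0
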