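/-
GATE-B / B10' (helper39): **the source of the old-killer** for `Pack.isStrictOrdinaryAt_of_killer`.

`W/ℤ` a Weierstrass curve with `Δ ≠ 0`, `p` a prime, `N'` a level, `S ⊇ primes of N'` finite.
If `W` is NOT residually modular of level `N'` then there is an integer polynomial `P` in the `T_ℓ`,
`ℓ ∉ S`, with

* `P (T^{N'}) = 0` in `heckeAlgebra N' 2 S` (an OLD-KILLER), and
* `θ (P (T^N)) = 1` for EVERY level `N` (`S ⊇` primes of `N`) and EVERY ring homomorphism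
  `θ : heckeAlgebra N 2 S →+* k` with `p = 0` in `k` and `θ (T_ℓ) = a_ℓ(W)` (`ℓ ∉ S`).

Sources: helper35's `GB/A/A6/Killer.exists_killer_poly` (`1 = P + P₀`, `P₀ ∈ (p, X_ℓ - a_ℓ)`) and
helper79's `GB/Top/CongrAll.isResiduallyModularOfLevel_of_cofinite` (congruences outside a finite
set suffice).
-/
import Fermat.Agent.GB.A.A6.Killer
import Fermat.Agent.GB.Top.CongrAll

set_option autoImplicit false
set_option linter.unusedSectionVars false

namespace Fermat.Agent.GB.B10.KillerPlug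

open CuspForm ModularFormClass CongruenceSubgroup
open Fermat.Agent.GK.New Fermat.Agent.GB.A.A6.Killer

section Theta

variable {N : ℕ} [NeZero N] {S : Finset ℕ} {p : ℕ} {a : ℕ → ℤ} {k : Type*} [CommRing k]

/-- a mod-`p` eigencharacter with eigenvalues `a ℓ` kills the ideal `(p, X_ℓ - a ℓ)`. -/
theorem theta_aeval_eq_zero_of_mem_nIdeal (hNS : ∀ q : ℕ, q.Prime → q ∣ N → q ∈ S)
    (θ : heckeAlgebra N 2 (↑S : Set ℕ) →+* k) (hpk : (p : k) = 0)
    (hθ : ∀ i : PrimeIdx S, θ (TfamH hNS i) = ((a i.1 : ℤ) : k))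
    {P₀ : MvPolynomial (PrimeIdx S) ℤ} (hP₀ : P₀ ∈ nIdeal S p a) :
    θ (MvPolynomial.aeval (TfamH hNS) P₀) = 0 := by
  set ev : MvPolynomial (PrimeIdx S) ℤ →+* k :=
    θ.comp (MvPolynomial.aeval (TfamH hNS) : MvPolynomial (PrimeIdx S) ℤ →ₐ[ℤ]
      heckeAlgebra N 2 (↑S : Set ℕ)).toRingHom with hev
  have hC : ∀ n : ℤ, ev (MvPolynomial.C n) = (n : k) := fun n => by
    rw [hev, RingHom.comp_apply]
    show θ (MvPolynomial.aeval (TfamH hNS) (MvPolynomial.C n)) = _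
    rw [MvPolynomial.aeval_C, eq_intCast, map_intCast]
  have hX : ∀ i : PrimeIdx S, ev (MvPolynomial.X i) = ((a i.1 : ℤ) : k) := fun i => by
    rw [hev, RingHom.comp_apply]
    show θ (MvPolynomial.aeval (TfamH hNS) (MvPolynomial.X i)) = _
    rw [MvPolynomial.aeval_X, hθ]
  have hle : nIdeal S p a ≤ RingHom.ker ev := by
    unfold nIdeal
    rw [Ideal.span_le]
    rintro y (rfl | ⟨i, rfl⟩)
    · show ev _ = 0
      rw [hC]
      exact_mod_cast hpk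
    · show ev _ = 0
      rw [map_sub, hX, hC, sub_self]
  exact hle hP₀

end Theta

section Killer

variable {N' : ℕ} [NeZero N'] {S : Finset ℕ}

/-- **the old-killer from `¬ IsResiduallyModularOfLevel`**, polynomial form:
`1 = P + P₀`, `P (T^{N'}) = 0`, `P₀ ∈ (p, X_ℓ - a_ℓ(W))`. -/
theorem exists_killer_poly_of_not_resMod (W : WeierstrassCurve ℤ) (hΔ : W.Δ ≠ 0) {p : ℕ}
    (hp : p.Prime) (hN'S : ∀ q : ℕ, q.Prime → q ∣ N' → q ∈ S)
    (hno : ¬ W.IsResiduallyModularOfLevel p N') :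
    ∃ P P₀ : MvPolynomial (PrimeIdx S) ℤ,
      P₀ ∈ nIdeal S p (fun ℓ => W.apOfModel ℓ) ∧ P + P₀ = 1 ∧
      MvPolynomial.aeval (TfamH hN'S) P = 0 := by
  refine exists_killer_poly hN'S p (fun ℓ => W.apOfModel ℓ) ?_
  rintro ⟨g, 𝔪', hg, h𝔪', hp𝔪', hcong⟩
  exact hno (Fermat.Agent.GB.Top.CongrAll.isResiduallyModularOfLevel_of_cofinite W hΔ p N' hp g 𝔪'
    hg h𝔪' hp𝔪' S (fun ℓ hℓ hℓS _ _ _ => hcong ℓ hℓ (by exact_mod_cast hℓS)))

/-- **the old-killer from `¬ IsResiduallyModularOfLevel`**: `P (T^{N'}) = 0` and `θ (P (T^N)) = 1`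
for every mod-`p` eigencharacter `θ` of any level `N` with the eigenvalues `a_ℓ(W)`. -/
theorem exists_killer_of_not_resMod (W : WeierstrassCurve ℤ) (hΔ : W.Δ ≠ 0) {p : ℕ}
    (hp : p.Prime) (hN'S : ∀ q : ℕ, q.Prime → q ∣ N' → q ∈ S)
    (hno : ¬ W.IsResiduallyModularOfLevel p N') :
    ∃ P : MvPolynomial (PrimeIdx S) ℤ, MvPolynomial.aeval (TfamH hN'S) P = 0 ∧
      ∀ (N : ℕ) [NeZero N] (hNS : ∀ q : ℕ, q.Prime → q ∣ N → q ∈ S) (k : Type) [CommRing k]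
        (θ : heckeAlgebra N 2 (↑S : Set ℕ) →+* k), (p : k) = 0 →
        (∀ (ℓ : ℕ) (hℓ : ℓ.Prime) (hℓN : ¬ ℓ ∣ N) (hℓS : ℓ ∉ (↑S : Set ℕ)),
          θ (heckeAlgebra.T hℓ hℓN hℓS) = ((W.apOfModel ℓ : ℤ) : k)) →
        θ (MvPolynomial.aeval (TfamH hNS) P) = 1 := by
  obtain ⟨P, P₀, hP₀, hsum, hP⟩ := exists_killer_poly_of_not_resMod (S := S) W hΔ hp hN'S hno
  refine ⟨P, hP, fun N _ hNS k _ θ hpk hθ => ?_⟩
  have h0 : θ (MvPolynomial.aeval (TfamH hNS) P₀) = 0 :=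
    theta_aeval_eq_zero_of_mem_nIdeal hNS θ hpk (fun i => hθ i.1 i.2.1 _ _) hP₀
  have h1 : P = 1 - P₀ := eq_sub_of_add_eq hsum
  rw [h1, map_sub, map_one, map_sub, map_one, h0, sub_zero]

end Killer

end Fermat.Agent.GB.B10.KillerPlug
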