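/-
GATE-B / B10′ node N1 (helper32): **`(φ² - 1)` on the `q`-new part of `Kum_m(F_{N'q})` lands in
`ker r₁ ∩ ker r₂`**, for every Frobenius lift `φ = τ` at a place `A ∣ q`, `q ∥ N' q`, and EVERY
modulus `m` (in particular `m = q ^ k`: the residue characteristic is allowed to divide `m`).

Inputs (all on main, all `m`-agnostic):
* (TR) `GK/UTr/TRInst.aUp_aLow_wAut` : `α^* (α_* x) = x + U_q (W_q x)`;
* (K)  `GK/UqKroneckerU.UEnd_sub_gal_mem_kerRed` : `(U_q - τ) x ∈ ker r₁`, and its `W`-conjugate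
       `UEnd_conj_sub_gal_mem_kerRed₂` : `(W U_q W - τ) x ∈ ker r₂`;
* (t)  `GK/New/KillerDies.kumHecke_aeval_dies` : `P (T^{N'}) = 0 ⟹ f (P (T^{N'q}) x) = 0` for every
       Galois-equivariant `f : Kum_m(F_{N'q}) → Kum_m(F_{N'})`.

Exports:
* `IsNew h m y`  : `α_* y = 0 ∧ β_* y = 0`  (`β_* = α_* ∘ W_q`);
* `IsNew.UW`, `IsNew.U_eq`, `IsNew.UU`, `IsNew.WUW` : on the new part
  `U W y = - y`, `U y = - W y`, `U U y = y`, `W U W y = U y`;
* `IsNew.gal`, `IsNew.wAut`, `IsNew.UEnd`, `IsNew.add/neg/sub` : stability;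
* `frobSq_sub_mem_kerRed`, `frobSq_sub_mem_kerRed₂` : `τ (τ y) - y ∈ ker r₁`, `∈ ker r₂`;
* `isNew_kumHecke_aeval` : `P (T^{N'}) = 0 ⟹ IsNew (P (T^{N'q}) x)`;
* `frobSq_kumHecke_aeval_mem` : the combination, in the `kumHecke` normalisation of `KillerDies`.
-/
import Fermat.Agent.GK.UTr.TRInst
import Fermat.Agent.GK.New.KillerDies

set_option autoImplicit false
set_option linter.unusedSectionVars false
set_option linter.style.haveILetI false

noncomputable section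

namespace Fermat.Agent.GB.B10.FrobSqKer

open AlgebraicCurve ModularCurve CuspForm
open Fermat.Agent.GJ Fermat.Agent.GJ.KumGroup Fermat.Agent.GJ.Kum.KumType
open Fermat.Agent.GK.UQ Fermat.Agent.GK.AL Fermat.Agent.GK.UqKronecker Fermat.Agent.GK.UTr

local notation "GQ" => (AlgebraicClosure ℚ ≃ₐ[ℚ] AlgebraicClosure ℚ)

variable {N' q : ℕ} [NeZero N'] [Fact q.Prime] (h : ExactDvd q (N' * q)) (m : ℕ)

/-- the instance `NeZero q` from `Fact q.Prime` (local). -/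
local instance neZero_of_fact : NeZero q := ⟨(Fact.out : q.Prime).ne_zero⟩

/-- shorthand: the Atkin–Lehner involution on `Kum_m(F_{N'q})`. -/
abbrev Wq : Module.End (ZMod m) (Additive (Kum Kb (FK (N' * q)) m)) :=
  autEnd (wAut h : FK (N' * q) ≃ₐ[Kb] FK (N' * q)) m

/-- shorthand: `U_q` on `Kum_m(F_{N'q})`. -/
abbrev Uq : Module.End (ZMod m) (Additive (Kum Kb (FK (N' * q)) m)) :=
  UEnd (N' * q) m (Dvd.intro_left N' rfl)

/-- **the `q`-new part** of `Kum_m(F_{N'q})`: killed by both degeneracy norms. -/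
def IsNew (y : Additive (Kum Kb (FK (N' * q)) m)) : Prop :=
  aLow N' q m y = 0 ∧ bLow h m y = 0

namespace IsNew

variable {h m}
variable {y : Additive (Kum Kb (FK (N' * q)) m)}

theorem zero : IsNew h m (0 : Additive (Kum Kb (FK (N' * q)) m)) :=
  ⟨map_zero _, map_zero _⟩

theorem add {y₁ y₂ : Additive (Kum Kb (FK (N' * q)) m)} (h₁ : IsNew h m y₁) (h₂ : IsNew h m y₂) :
    IsNew h m (y₁ + y₂) :=
  ⟨by rw [map_add, h₁.1, h₂.1, add_zero], by rw [map_add, h₁.2, h₂.2, add_zero]⟩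

theorem neg (hy : IsNew h m y) : IsNew h m (-y) :=
  ⟨by rw [map_neg, hy.1, neg_zero], by rw [map_neg, hy.2, neg_zero]⟩

theorem sub {y₁ y₂ : Additive (Kum Kb (FK (N' * q)) m)} (h₁ : IsNew h m y₁) (h₂ : IsNew h m y₂) :
    IsNew h m (y₁ - y₂) :=
  ⟨by rw [map_sub, h₁.1, h₂.1, sub_zero], by rw [map_sub, h₁.2, h₂.2, sub_zero]⟩

/-- the new part is stable under `W_q`. -/
theorem wAut (hy : IsNew h m y) : IsNew h m (Wq h m y) := by
  refine ⟨hy.2, ?_⟩
  rw [bLow_apply]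
  show aLow N' q m (Wq h m (Wq h m y)) = 0
  rw [autEnd_wAut_autEnd_wAut]
  exact hy.1

/-- the new part is stable under the Galois action. -/
theorem gal (hy : IsNew h m y) (σ : GQ) : IsNew h m (gal (N' * q) m σ y) :=
  ⟨by rw [aLow_gal, hy.1, map_zero], by rw [bLow_gal, hy.2, map_zero]⟩

/-- (R1) `U W y = - y` on the new part. -/
theorem UW (hy : IsNew h m y) : Uq m (Wq h m y) = -y := by
  have h1 := aUp_aLow_wAut h m y
  rw [hy.1, map_zero] at h1
  exact (neg_eq_of_add_eq_zero_right h1.symm).symm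

/-- (R2) `U y = - W y` on the new part. -/
theorem U_eq (hy : IsNew h m y) : Uq m y = -Wq h m y := by
  have h1 := hy.wAut.UW
  rwa [autEnd_wAut_autEnd_wAut] at h1

/-- the new part is stable under `U_q`. -/
theorem UEnd (hy : IsNew h m y) : IsNew h m (Uq m y) := by
  rw [hy.U_eq]
  exact hy.wAut.neg

/-- `U U y = y` on the new part. -/
theorem UU (hy : IsNew h m y) : Uq m (Uq m y) = y := by
  rw [hy.U_eq, map_neg, hy.UW, neg_neg]

/-- `W U W y = U y` on the new part. -/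
theorem WUW (hy : IsNew h m y) : Wq h m (Uq m (Wq h m y)) = Uq m y := by
  rw [hy.UW, map_neg, hy.U_eq]

end IsNew

section Frob

variable {h m}
variable {A : ValuationSubring Kb}

/-- `U_q` commutes with the Galois action (pointwise form of `UEnd_comm_gal`). -/
theorem Uq_gal (σ : GQ) (y : Additive (Kum Kb (FK (N' * q)) m)) :
    Uq m (gal (N' * q) m σ y) = gal (N' * q) m σ (Uq (N' := N') m y) := by
  have h1 := UEnd_comm_gal (N := N' * q) m (Dvd.intro_left N' rfl) σ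
  exact (LinearMap.congr_fun h1 y).symm

/-- **`(τ² - 1) y ∈ ker r₁`** for `y` in the `q`-new part and `τ` a Frobenius lift at `A ∣ q`. -/
theorem frobSq_sub_mem_kerRed (hA : A.LiesOverPrime q) {τ : GQ} (hτ : A.IsFrobeniusAt τ q)
    {y : Additive (Kum Kb (FK (N' * q)) m)} (hy : IsNew h m y) :
    gal (N' * q) m τ (gal (N' * q) m τ y) - y ∈ kerRed (N' * q) A m := by
  -- `z := τ y + U y`; `(U - τ) z = U U y - τ τ y = y - τ τ y`
  have hK := UEnd_sub_gal_mem_kerRed (N := N' * q) (A := A) (Dvd.intro_left N' rfl) hA hτ m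
    (gal (N' * q) m τ y + Uq m y)
  have e : UEnd (N' * q) m (Dvd.intro_left N' rfl) (gal (N' * q) m τ y + Uq m y)
      - gal (N' * q) m τ (gal (N' * q) m τ y + Uq m y)
      = -(gal (N' * q) m τ (gal (N' * q) m τ y) - y) := by
    show Uq m (gal (N' * q) m τ y + Uq m y) - _ = _
    rw [map_add, map_add, Uq_gal, hy.UU]
    abel
  rw [e] at hK
  exact (AddSubgroup.neg_mem_iff _).1 hK

/-- **`(τ² - 1) y ∈ ker r₂`** for `y` in the `q`-new part and `τ` a Frobenius lift at `A ∣ q`. -/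
theorem frobSq_sub_mem_kerRed₂ (hA : A.LiesOverPrime q) {τ : GQ} (hτ : A.IsFrobeniusAt τ q)
    {y : Additive (Kum Kb (FK (N' * q)) m)} (hy : IsNew h m y) :
    gal (N' * q) m τ (gal (N' * q) m τ y) - y ∈ kerRed₂ h A m := by
  have hz : IsNew h m (gal (N' * q) m τ y + Uq m y) := (hy.gal τ).add hy.UEnd
  have hK := UEnd_conj_sub_gal_mem_kerRed₂ (A := A) h hA hτ m (gal (N' * q) m τ y + Uq m y)
  have e : autEnd (wAut h : FK (N' * q) ≃ₐ[Kb] FK (N' * q)) m
        (UEnd (N' * q) m h.dvd (autEnd (wAut h : FK (N' * q) ≃ₐ[Kb] FK (N' * q)) m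
          (gal (N' * q) m τ y + Uq m y)))
      - gal (N' * q) m τ (gal (N' * q) m τ y + Uq m y)
      = -(gal (N' * q) m τ (gal (N' * q) m τ y) - y) := by
    have h1 : autEnd (wAut h : FK (N' * q) ≃ₐ[Kb] FK (N' * q)) m
        (UEnd (N' * q) m h.dvd (autEnd (wAut h : FK (N' * q) ≃ₐ[Kb] FK (N' * q)) m
          (gal (N' * q) m τ y + Uq m y))) = Uq m (gal (N' * q) m τ y + Uq m y) := hz.WUW
    rw [h1, map_add, map_add, Uq_gal, hy.UU]
    abel
  rw [e] at hK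
  exact (AddSubgroup.neg_mem_iff _).1 hK

end Frob

section Killer

open Fermat.Agent.GK.New Fermat.Agent.GK.Tate.KumHecke

variable {h}
variable (S : Finset ℕ) [NeZero m] {ζ : ℂ}

/-- **`P (T^{N'}) = 0 ⟹ P (T^{N'q}) x` is `q`-new.** -/
theorem isNew_kumHecke_aeval (hζ : IsPrimitiveRoot ζ m)
    (hMS : ∀ r : ℕ, r.Prime → r ∣ N' * q → r ∈ S) (hN'S : ∀ r : ℕ, r.Prime → r ∣ N' → r ∈ S)
    (hmS : ∀ r : ℕ, r.Prime → r ∣ m → r ∈ S)
    (P : MvPolynomial (PrimeIdx S) ℤ)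
    (hP : MvPolynomial.aeval (TfamH (N' := N') (S := S) hN'S) P = 0)
    (x : Additive (Kum Kb (FK (N' * q)) m)) :
    IsNew h m (kumHecke (N' * q) (↑S : Set ℕ) m hζ (MvPolynomial.aeval (TfamH hMS) P) x) :=
  ⟨kumHecke_aeval_dies S m hζ hMS hN'S hmS (aLow N' q m) (fun σ x => aLow_gal N' q m σ x) P hP x,
    kumHecke_aeval_dies S m hζ hMS hN'S hmS (bLow h m) (fun σ x => bLow_gal h m σ x) P hP x⟩

/-- **N1**: for an old-killer `P` (`P (T^{N'}) = 0`), every Frobenius lift `τ` at `A ∣ q` and every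
`x ∈ Kum_m(F_{N'q})`: `(τ² - 1) P(T) x ∈ ker r₁ ∩ ker r₂`. -/
theorem frobSq_kumHecke_aeval_mem {A : ValuationSubring Kb} (hA : A.LiesOverPrime q) {τ : GQ}
    (hτ : A.IsFrobeniusAt τ q) (hζ : IsPrimitiveRoot ζ m)
    (hMS : ∀ r : ℕ, r.Prime → r ∣ N' * q → r ∈ S) (hN'S : ∀ r : ℕ, r.Prime → r ∣ N' → r ∈ S)
    (hmS : ∀ r : ℕ, r.Prime → r ∣ m → r ∈ S)
    (P : MvPolynomial (PrimeIdx S) ℤ)
    (hP : MvPolynomial.aeval (TfamH (N' := N') (S := S) hN'S) P = 0)
    (x : Additive (Kum Kb (FK (N' * q)) m)) :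
    gal (N' * q) m τ (gal (N' * q) m τ
        (kumHecke (N' * q) (↑S : Set ℕ) m hζ (MvPolynomial.aeval (TfamH hMS) P) x))
      - kumHecke (N' * q) (↑S : Set ℕ) m hζ (MvPolynomial.aeval (TfamH hMS) P) x
      ∈ kerRed (N' * q) A m ⊓ kerRed₂ h A m :=
  have hy := isNew_kumHecke_aeval (h := h) m S hζ hMS hN'S hmS P hP x
  ⟨frobSq_sub_mem_kerRed hA hτ hy, frobSq_sub_mem_kerRed₂ hA hτ hy⟩

end Killer

end Fermat.Agent.GB.B10.FrobSqKer
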