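/-
GATE-B / B10′ seam (b) (helper32): **a CONCRETE `KumLevelData` whose Hecke action is `kumHeckeN`**.

`GH/S32/Top.exists_kumLevelData_equiv` only remembers `Comm` and a Galois-equivariant identification
`D.K n ≃+ J₀(N)[pⁿ]`.  The B10′ route (`p`-new ⟹ strict) cuts by an old-killer `t₀ = P(T)` and
therefore needs the HECKE half too.  Here the level data are built from the concrete lattice of
GATE-J/K (`Lam N`, `latAct`, `ThetaN`, `kumModelPow`), exactly as in `GK/Tate/S35Top.s35_of_gates`: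

* `levelData p N S hpS hNS : KumLevelData N S p`, with
  `(levelData …).K n = Additive (Kum ℚ̄ (FK N) (p ^ n))` DEFINITIONALLY;
* `levelData_comm`            : `Comm`;
* `levelData_gal_apply`       : `D.gal n σ x = KumType.gal N (p ^ n) σ x`   (`rfl`);
* `levelData_heckeHom_apply`  : `D.heckeHom n t x = kumHeckeN N S p n t x`  for ALL `t`;
* `levelData_Tn_apply`        : `D.Tn n ℓ x = kumTl … x` for `ℓ ∉ S`;
* `toTors`, `toTors_gal`      : the identification with `J₀(N)[pⁿ]`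
  (`Submodule.torsionBy ℤ (JZero N) ((p : ℤ) ^ n)`, `GH.Top.torsAct`), as in GH/S32/Top;
* `exists_levelData_hecke`    : the packaged existential twin of `exists_kumLevelData_equiv`.
-/
import Fermat.Agent.GK.Tate.KumHecke
import Fermat.Agent.GH.S32.Top
import Fermat.Agent.GJ.Tate.LevelsInst

set_option autoImplicit false
set_option linter.unusedSectionVars false

noncomputable section

namespace Fermat.Agent.GB.B10.KumLevelHecke

open CuspForm ModularCurve
open Fermat.Agent.GJ.KumGroup Fermat.Agent.GJ.Kum.KumType Fermat.Agent.GJ.J4Asm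
open Fermat.Agent.GJ.KumFinal (hnMemHyp hnDivHyp)
open Fermat.Agent.GJ.Tate.S31Top Fermat.Agent.GJ.Tate.OfTower Fermat.Agent.GJ
open Fermat.Agent.GJ.Tate.S30Top Fermat.Agent.GJ.KumTower Fermat.Agent.GJ.J2.Lat
open Fermat.Agent.GJ.J2.LatAct Fermat.Agent.GJ.Tate.TowerGateCInst Fermat.Agent.GJ.Tate
open Fermat.Agent.GK.Tate.S35Top Fermat.Agent.GK.Tate.KumHecke Fermat.Agent.Common_helper32
open Fermat.Agent.GH

local notation "Qb" => AlgebraicClosure ℚ

variable (p : ℕ) [Fact p.Prime] (N : ℕ) [NeZero N] (S : Finset ℕ)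

/-- (K18s) at every exponent: a theorem (S30/S31 are closed). -/
theorem hK18 : K18sPow :=
  Fermat.Agent.GJ.Tate.S30Final.k18sPow_of_aux Fermat.Agent.GJ.J1.K18sAllFinal.k18sAux

theorem pow_pos' (n : ℕ) : 0 < p ^ n := pow_pos (Fact.out : p.Prime).pos n

/-- Hecke equivariance of the tower maps `ThetaN` (copied from `S35Top.s35_of_gates`). -/
theorem thetaN_heckeTl (hNS : ∀ q : ℕ, q.Prime → q ∣ N → q ∈ S) (n : ℕ) (ℓ : ℕ) (hℓ : ℓ.Prime)
    (hℓS : ℓ ∉ S) (x : Lam N) :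
    ThetaN N p n (latAct N (↑S : Set ℕ) (heckeTl N S ℓ) x) =
      (kumModelPow N hK18 (p ^ n) (pow_pos' p n)).T ℓ (ThetaN N p n x) := by
  have hp : p.Prime := Fact.out
  have hne : NeZero (p ^ n) := ⟨pow_ne_zero n hp.ne_zero⟩
  have hℓN : ¬ ℓ ∣ N := fun h => hℓS (hNS ℓ hℓ h)
  have hℓS' : ℓ ∉ (↑S : Set ℕ) := by simpa using hℓS
  have : NeZero ℓ := ⟨hℓ.ne_zero⟩
  obtain ⟨u, hu⟩ := exists_rep (K := Qb) (F := FK N) (p := p ^ n) (ThetaN N p n x)
  set hM := hnMemHyp N hℓ hℓN with hMdef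
  set hD := hnDivHyp N (p ^ n) hℓ hℓN with hDdef
  set u' : pDivUnits Qb (FK N) (p ^ n) :=
    ⟨heckeUnits hM u, heckeUnits_mem hM hD u u.2⟩ with hu'
  have h1 : ThetaN N p n (latAct N (↑S : Set ℕ) (heckeAlgebra.T hℓ hℓN hℓS') x)
      = Additive.ofMul (Kum.mk u') :=
    thetaLat_latAct_T N _ _ _ ℓ hℓ hℓN hℓS' x u u' hu rfl
  have h2 := kumModel_T_cls_of_eq (p := p ^ n) (fun _ hℓ hℓN => hnMemHyp N hℓ hℓN)
    (fun _ hℓ hℓN => hnDivHyp N (p ^ n) hℓ hℓN)
    (fun _ hℓ hℓNm => (es_hyps_pow N hK18 (pow_pos' p n) hℓ hℓNm).1)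
    (fun _ hℓ hℓNm => (es_hyps_pow N hK18 (pow_pos' p n) hℓ hℓNm).2) hℓ hℓN u u' rfl
  rw [heckeTl_eq hℓ hℓN hℓS']
  exact h1.trans (h2.symm.trans
    (congrArg ((kumModelPow N hK18 (p ^ n) (pow_pos' p n)).T ℓ) hu).symm)

variable {S}

/-- the Kummer models at the moduli `p ^ n`. -/
def Mn (n : ℕ) : KumModel N (p ^ n) := kumModelPow N hK18 (p ^ n) (pow_pos' p n)

/-- `ThetaN`, typed into the carrier of `Mn`. -/
def ΘM (n : ℕ) : Lam N →+ (Mn p N n).K := ThetaN N p n

theorem ΘM_surjective (n : ℕ) : Function.Surjective (ΘM p N n) :=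
  thetaLat_surjective N _ _

theorem ΘM_eq_zero (n : ℕ) (x : Lam N) (hx : ΘM p N n x = 0) : ∃ y, x = (p ^ n) • y :=
  thetaLat_eq_zero N _ _ x hx

/-- **the concrete Kummer level data** at `(N, S, p)`. -/
def levelData (hpS : p ∈ S) (hNS : ∀ q : ℕ, q.Prime → q ∣ N → q ∈ S) : KumLevelData N S p :=
  KumLevelData.ofKumModels (Fact.out : p.Prime) hpS hNS (Lam N) (latAct N (↑S : Set ℕ))
    (latAct_injective N _) (Mn p N) (ΘM p N) (ΘM_surjective p N) (ΘM_eq_zero p N)
    (fun n ℓ hℓ hℓS x => thetaN_heckeTl p N S hNS n ℓ hℓ hℓS x)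

variable (hpS : p ∈ S) (hNS : ∀ q : ℕ, q.Prime → q ∣ N → q ∈ S)

theorem levelData_comm : (levelData p N hpS hNS).Comm :=
  ofKumModels_comm (Fact.out : p.Prime) hpS hNS (Lam N) (latAct N (↑S : Set ℕ))
    (latAct_injective N _) (Mn p N) (ΘM p N) (ΘM_surjective p N) (ΘM_eq_zero p N) _

/-- the carrier is the Kummer group, definitionally. -/
theorem levelData_K (n : ℕ) :
    (levelData p N hpS hNS).K n = Additive (Kum Qb (FK N) (p ^ n)) := rfl

/-- the identity, as a typed additive equivalence. -/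
def toKum (n : ℕ) : (levelData p N hpS hNS).K n ≃+ Additive (Kum Qb (FK N) (p ^ n)) :=
  AddEquiv.refl _

theorem toKum_gal (n : ℕ) (σ : GQ) (x : (levelData p N hpS hNS).K n) :
    toKum p N hpS hNS n ((levelData p N hpS hNS).gal n σ x) =
      gal N (p ^ n) σ (toKum p N hpS hNS n x) := rfl

theorem levelData_Θ (n : ℕ) (x : Lam N) :
    toKum p N hpS hNS n ((levelData p N hpS hNS).Θ n x) = ThetaN N p n x := rfl

/-- **the Hecke action of the level data is `kumHeckeN`.** -/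
theorem toKum_heckeHom (n : ℕ) (t : heckeAlgebra N 2 (↑S : Set ℕ))
    (x : (levelData p N hpS hNS).K n) :
    toKum p N hpS hNS n ((levelData p N hpS hNS).heckeHom n t x) =
      kumHeckeN N S p n t (toKum p N hpS hNS n x) := by
  obtain ⟨y, rfl⟩ := ΘM_surjective p N n x
  have h1 := KumLevelData.heckeHom_Θ (levelData p N hpS hNS) n t y
  have h2 := kumHeckeN_ThetaN N S p n t y
  exact h1.trans h2.symm

/-- the identification with `J₀(N)[pⁿ]`. -/
def toTors (n : ℕ) : (levelData p N hpS hNS).K n ≃+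
    ↥(Submodule.torsionBy ℤ (JZero N) ((p : ℤ) ^ n)) :=
  haveI : NeZero p := ⟨(Fact.out : p.Prime).ne_zero⟩
  (toKum p N hpS hNS n).trans (KummerEquivariant.kumTorsionBy N p n)

theorem toTors_gal (n : ℕ) (σ : GQ) (x : (levelData p N hpS hNS).K n) :
    toTors p N hpS hNS n ((levelData p N hpS hNS).gal n σ x) =
      GH.Top.torsAct N ((p : ℤ) ^ n) σ (toTors p N hpS hNS n x) := by
  have : NeZero p := ⟨(Fact.out : p.Prime).ne_zero⟩
  apply Subtype.ext
  rw [GH.Top.coe_torsAct]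
  exact KummerEquivariant.coe_kumTorsionBy_gal N p n σ x

/-- `toTors` is `kumTorsionBy` (on the nose). -/
theorem toTors_apply (n : ℕ) (x : (levelData p N hpS hNS).K n) :
    haveI : NeZero p := ⟨(Fact.out : p.Prime).ne_zero⟩
    toTors p N hpS hNS n x = KummerEquivariant.kumTorsionBy N p n (toKum p N hpS hNS n x) := rfl

/-- **packaged twin of `GH/S32/Top.exists_kumLevelData_equiv`** with the Hecke half. -/
theorem exists_levelData_hecke (hpS : p ∈ S) (hNS : ∀ q : ℕ, q.Prime → q ∣ N → q ∈ S) :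
    ∃ D : KumLevelData N S p, D.Comm ∧ ∀ n : ℕ,
      ∃ e : D.K n ≃+ Additive (Kum Qb (FK N) (p ^ n)),
        (∀ (σ : GQ) (x : D.K n), e (D.gal n σ x) = gal N (p ^ n) σ (e x)) ∧
        (∀ (t : heckeAlgebra N 2 (↑S : Set ℕ)) (x : D.K n),
          e (D.heckeHom n t x) = kumHeckeN N S p n t (e x)) :=
  ⟨levelData p N hpS hNS, levelData_comm p N hpS hNS, fun n =>
    ⟨toKum p N hpS hNS n, toKum_gal p N hpS hNS n, toKum_heckeHom p N hpS hNS n⟩⟩

end Fermat.Agent.GB.B10.KumLevelHecke
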