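/-
GATE-B / B10′ (helper32): N1 in the vocabulary of the concrete level data `KumLevelHecke.levelData`.

For `N = N' * p`, `p ∥ N`, `A ∣ p`, `τ` a Frobenius lift at `A`, an old-killer `P`
(`P (T^{N'}) = 0`) and `t₀ := P (T^N)`, on every level `D.K n = Kum_{pⁿ}(F_N)`:

  `D.gal n τ (D.gal n τ (D.heckeHom n t₀ x)) - D.heckeHom n t₀ x ∈ ker r₁ ⊓ ker r₂`.
-/
import Fermat.Agent.GB.B10.FrobSqKer
import Fermat.Agent.GB.B10.KumLevelHecke

set_option autoImplicit false
set_option linter.unusedSectionVars false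

noncomputable section

namespace Fermat.Agent.GB.B10.FrobSqLevel

open CuspForm ModularCurve
open Fermat.Agent.GJ.KumGroup Fermat.Agent.GJ.Kum.KumType
open Fermat.Agent.GJ.Tate Fermat.Agent.Common_helper32
open Fermat.Agent.GK.AL Fermat.Agent.GK.UqKronecker Fermat.Agent.GK.New
open Fermat.Agent.GK.Tate.KumHecke
open Fermat.Agent.GB.B10.FrobSqKer Fermat.Agent.GB.B10.KumLevelHecke

local notation "Qb" => AlgebraicClosure ℚ

variable {N' p : ℕ} [NeZero N'] [Fact p.Prime] {S : Finset ℕ}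

/-- the instance `NeZero p` from `Fact p.Prime` (local). -/
local instance neZero_of_fact' : NeZero p := ⟨(Fact.out : p.Prime).ne_zero⟩

/-- **N1 on the level data**: `(τ² - 1) t₀ x ∈ ker r₁ ⊓ ker r₂` on `Kum_{pⁿ}(F_{N'p})`,
`t₀ = P (T^{N'p})` an old-killer, `τ` a Frobenius lift at `A ∣ p`. -/
theorem frobSq_heckeHom_mem (h : ExactDvd p (N' * p)) (hpS : p ∈ S)
    (hNS : ∀ r : ℕ, r.Prime → r ∣ N' * p → r ∈ S) (hN'S : ∀ r : ℕ, r.Prime → r ∣ N' → r ∈ S)
    {A : ValuationSubring Qb} (hA : A.LiesOverPrime p) {τ : GQ} (hτ : A.IsFrobeniusAt τ p)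
    (P : MvPolynomial (PrimeIdx S) ℤ)
    (hP : MvPolynomial.aeval (TfamH (N' := N') (S := S) hN'S) P = 0) (n : ℕ)
    (x : (levelData p (N' * p) hpS hNS).K n) :
    toKum p (N' * p) hpS hNS n
        ((levelData p (N' * p) hpS hNS).gal n τ ((levelData p (N' * p) hpS hNS).gal n τ
            ((levelData p (N' * p) hpS hNS).heckeHom n (MvPolynomial.aeval (TfamH hNS) P) x))
          - (levelData p (N' * p) hpS hNS).heckeHom n (MvPolynomial.aeval (TfamH hNS) P) x)
      ∈ kerRed (N' * p) A (p ^ n) ⊓ kerRed₂ h A (p ^ n) := by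
  have hp : p.Prime := Fact.out
  have hne : NeZero (p ^ n) := ⟨pow_ne_zero n hp.ne_zero⟩
  have hmS : ∀ r : ℕ, r.Prime → r ∣ p ^ n → r ∈ S := by
    intro r hr hdvd
    have : r = p := (Nat.prime_dvd_prime_iff_eq hr hp).mp (hr.dvd_of_dvd_pow hdvd)
    exact this ▸ hpS
  have key := frobSq_kumHecke_aeval_mem (h := h) (p ^ n) S hA hτ
    (Fermat.Agent.GJ.KumTower.isPrimitiveRoot_zetaPow p n hp.ne_zero) hNS hN'S hmS P hP
    (toKum p (N' * p) hpS hNS n x)
  rw [map_sub, toKum_gal, toKum_gal, toKum_heckeHom]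
  exact key

end Fermat.Agent.GB.B10.FrobSqLevel
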