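/-
GATE-B / B10' (helper39), file 1: **TRANSFER WITH A SQUARE RELATION**.

`GS/Alg/Transfer.ConnPackage.of_isSubquotPow` (helper79) transports the connected package
`(stab, incr, ce)` of a subgroup `W ≤ M` to `W' := f (X₁ ∩ W ^ r)` along an equivariant subquotient
of a finite power.  Here the SAME `W'` is made explicit (`transferW`) so that further relations can be
transported with it:

* `connPackage_transferW` : the package for `transferW X₁ f W` (helper79's proof, verbatim);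
* `sq_transferW`   : `∀ u, act τ (act τ u) - u ∈ W`  ⟹  the same for `act'` and `transferW`;
* `sqT_transferW`  : the twisted form `act τ (act τ (act t u)) - act t u ∈ W` (`t` another index of
  the acting family, e.g. a Hecke operator);
* `ConnPackage.restrict`, `sq_restrict` : restriction of the package to a stable subgroup
  `M₁ ≤ M` (with `W ⊓ M₁`), where the square relation is only asked ON `M₁`;
* `ConnPackage.le_of_incr` : **(CE) ⟹ minimality**: `W ≤ L` for every `I`-stable `L` containing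
  the increments `σ u - u`.

Mathlib + `GS/Alg/Transfer` only.
-/
import Fermat.Agent.GS.Alg.Transfer

set_option autoImplicit false

namespace Fermat.Agent.GB.B10.TransferSq

open Fermat.Agent.GH.S32 Fermat.Agent.GS.Alg.Transfer Function

variable {G : Type*} {M M' : Type*} [AddCommGroup M] [AddCommGroup M']

/-- `W ^ r ≤ M ^ r`. -/
def powW (r : ℕ) (W : AddSubgroup M) : AddSubgroup (Fin r → M) :=
  AddSubgroup.pi Set.univ fun _ => W

theorem mem_powW {r : ℕ} {W : AddSubgroup M} {x : Fin r → M} : x ∈ powW r W ↔ ∀ i, x i ∈ W := by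
  show x ∈ AddSubgroup.pi Set.univ (fun _ => W) ↔ _
  rw [AddSubgroup.mem_pi]
  exact ⟨fun h i => h i (Set.mem_univ i), fun h i _ => h i⟩

/-- **the transported subgroup** `W' := f (X₁ ∩ W ^ r)`. -/
def transferW {r : ℕ} (X₁ : AddSubgroup (Fin r → M)) (f : X₁ →+ M') (W : AddSubgroup M) :
    AddSubgroup M' :=
  ((powW r W).comap X₁.subtype).map f

theorem mem_transferW {r : ℕ} {X₁ : AddSubgroup (Fin r → M)} {f : X₁ →+ M'} {W : AddSubgroup M}
    {w : M'} : w ∈ transferW X₁ f W ↔ ∃ z : X₁, (∀ i, z.1 i ∈ W) ∧ f z = w := by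
  constructor
  · rintro ⟨z, hz, rfl⟩
    exact ⟨z, mem_powW.1 hz, rfl⟩
  · rintro ⟨z, hz, rfl⟩
    exact ⟨z, mem_powW.2 hz, rfl⟩

section Transfer

variable {I D : Set G} {act : G → M → M} {act' : G → M' → M'}
  {r : ℕ} {X₁ : AddSubgroup (Fin r → M)} {f : X₁ →+ M'}

/-- **TRANSFER** (helper79's `ConnPackage.of_isSubquotPow` with the subgroup made explicit). -/
theorem connPackage_transferW
    (hadd : ∀ σ x y, act σ (x + y) = act σ x + act σ y) (hID : I ⊆ D)
    (hinv : ∀ σ ∈ D, ∃ τ ∈ D, ∀ w, act' τ (act' σ w) = w)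
    {W : AddSubgroup M} (h : ConnPackage I D act W) (hf : Surjective f)
    (hst : ∀ g, ∀ x ∈ X₁, (fun i => act g (x i)) ∈ X₁)
    (heq : ∀ g (x : X₁), f ⟨fun i => act g (x.1 i), hst g x.1 x.2⟩ = act' g (f x)) :
    ConnPackage I D act' (transferW X₁ f W) := by
  have hWI : ∀ σ ∈ I, ∀ w ∈ W, act σ w ∈ W := fun σ hσ w hw => (h.stab σ (hID hσ) w).2 hw
  have hfwd : ∀ σ ∈ D, ∀ w ∈ transferW X₁ f W, act' σ w ∈ transferW X₁ f W := by
    intro σ hσ w hw
    obtain ⟨z, hz, rfl⟩ := mem_transferW.1 hw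
    exact mem_transferW.2 ⟨⟨fun i => act σ (z.1 i), hst σ z.1 z.2⟩,
      fun i => (h.stab σ hσ _).2 (hz i), heq σ z⟩
  refine ⟨fun σ hσ w => ⟨fun hw => ?_, hfwd σ hσ w⟩, ?_, ?_⟩
  · obtain ⟨τ, hτ, hτσ⟩ := hinv σ hσ
    have := hfwd τ hτ _ hw
    rwa [hτσ] at this
  · intro σ hσ u
    obtain ⟨x, rfl⟩ := hf u
    refine mem_transferW.2 ⟨⟨fun i => act σ (x.1 i), hst σ x.1 x.2⟩ - x, ?_, ?_⟩
    · intro i
      exact h.incr σ hσ (x.1 i)
    · rw [map_sub, heq]
  · intro N' hN' w hw hwN'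
    obtain ⟨z, hz, rfl⟩ := mem_transferW.1 hw
    let N : AddSubgroup (Fin r → M) := (N'.comap f).map X₁.subtype
    have hNmem : ∀ x : X₁, x.1 ∈ N ↔ f x ∈ N' := by
      intro x
      constructor
      · rintro ⟨x', hx', hxx'⟩
        have : x' = x := Subtype.ext hxx'
        rw [← this]
        exact hx'
      · intro hx
        exact ⟨x, hx, rfl⟩
    have hN : ∀ σ ∈ I, ∀ u ∈ N, (fun i => act σ (u i)) ∈ N := by
      rintro σ hσ u ⟨x, hx, rfl⟩
      have h1 : f ⟨fun i => act σ (x.1 i), hst σ x.1 x.2⟩ ∈ N' := by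
        rw [heq]
        exact hN' σ hσ _ hx
      exact (hNmem ⟨fun i => act σ (x.1 i), hst σ x.1 x.2⟩).2 h1
    have hzN : ∀ σ ∈ I, (fun i => act σ (z.1 i)) - z.1 ∈ N := by
      intro σ hσ
      have h1 : f (⟨fun i => act σ (z.1 i), hst σ z.1 z.2⟩ - z) ∈ N' := by
        rw [map_sub, heq]
        exact hwN' σ hσ
      exact (hNmem (⟨fun i => act σ (z.1 i), hst σ z.1 z.2⟩ - z)).2 h1
    have := ce_pow hadd hWI h.ce r N hN z.1 hz hzN
    exact (hNmem z).1 this

/-- the square relation passes to the transported subgroup. -/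
theorem sq_transferW {W : AddSubgroup M} (hf : Surjective f)
    (hst : ∀ g, ∀ x ∈ X₁, (fun i => act g (x i)) ∈ X₁)
    (heq : ∀ g (x : X₁), f ⟨fun i => act g (x.1 i), hst g x.1 x.2⟩ = act' g (f x))
    {τ : G} (hsq : ∀ u, act τ (act τ u) - u ∈ W) (v : M') :
    act' τ (act' τ v) - v ∈ transferW X₁ f W := by
  obtain ⟨x, rfl⟩ := hf v
  set x1 : X₁ := ⟨fun i => act τ (x.1 i), hst τ x.1 x.2⟩ with hx1
  set x2 : X₁ := ⟨fun i => act τ (x1.1 i), hst τ x1.1 x1.2⟩ with hx2
  refine mem_transferW.2 ⟨x2 - x, fun i => hsq (x.1 i), ?_⟩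
  rw [map_sub, hx2, heq, hx1, heq]

/-- the twisted square relation passes to the transported subgroup. -/
theorem sqT_transferW {W : AddSubgroup M} (hf : Surjective f)
    (hst : ∀ g, ∀ x ∈ X₁, (fun i => act g (x i)) ∈ X₁)
    (heq : ∀ g (x : X₁), f ⟨fun i => act g (x.1 i), hst g x.1 x.2⟩ = act' g (f x))
    {τ t : G} (hsq : ∀ u, act τ (act τ (act t u)) - act t u ∈ W) (v : M') :
    act' τ (act' τ (act' t v)) - act' t v ∈ transferW X₁ f W := by
  obtain ⟨x, rfl⟩ := hf v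
  set x0 : X₁ := ⟨fun i => act t (x.1 i), hst t x.1 x.2⟩ with hx0
  set x1 : X₁ := ⟨fun i => act τ (x0.1 i), hst τ x0.1 x0.2⟩ with hx1
  set x2 : X₁ := ⟨fun i => act τ (x1.1 i), hst τ x1.1 x1.2⟩ with hx2
  refine mem_transferW.2 ⟨x2 - x0, fun i => hsq (x.1 i), ?_⟩
  rw [map_sub, hx2, heq, hx1, heq, hx0, heq]

end Transfer

/-- **TRANSFER, existential form**: the package together with the square relations for a set `Fr`
of indices passes along `IsSubquotPow`. -/
theorem exists_transfer {I D Fr : Set G} {act : G → M → M} {act' : G → M' → M'}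
    (hadd : ∀ σ x y, act σ (x + y) = act σ x + act σ y) (hID : I ⊆ D)
    (hinv : ∀ σ ∈ D, ∃ τ ∈ D, ∀ w, act' τ (act' σ w) = w)
    {W : AddSubgroup M} (h : ConnPackage I D act W)
    (hsq : ∀ τ ∈ Fr, ∀ u, act τ (act τ u) - u ∈ W) (hsub : IsSubquotPow act act') :
    ∃ W' : AddSubgroup M', ConnPackage I D act' W' ∧
      ∀ τ ∈ Fr, ∀ v, act' τ (act' τ v) - v ∈ W' := by
  obtain ⟨r, X₁, f, hf, hst, heq⟩ := hsub
  exact ⟨transferW X₁ f W, connPackage_transferW hadd hID hinv h hf hst heq,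
    fun τ hτ v => sq_transferW hf hst heq (hsq τ hτ) v⟩

/-! ### restriction to a stable subgroup -/

section Restrict

variable {I D : Set G} {act : G → M → M}

/-- the restricted action on a stable subgroup. -/
def actOn (M₁ : AddSubgroup M) (hM₁ : ∀ g, ∀ x ∈ M₁, act g x ∈ M₁) : G → M₁ → M₁ :=
  fun g x => ⟨act g x.1, hM₁ g x.1 x.2⟩

theorem coe_actOn (M₁ : AddSubgroup M) (hM₁ : ∀ g, ∀ x ∈ M₁, act g x ∈ M₁) (g : G) (x : M₁) :
    ((actOn M₁ hM₁ g x : M₁) : M) = act g x.1 := rfl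

/-- **restriction of the package** to a stable subgroup `M₁`, with `W ⊓ M₁`. -/
theorem ConnPackage.restrict {W : AddSubgroup M} (h : ConnPackage I D act W)
    (M₁ : AddSubgroup M) (hM₁ : ∀ g, ∀ x ∈ M₁, act g x ∈ M₁) :
    ConnPackage I D (actOn M₁ hM₁) (W.comap M₁.subtype) := by
  refine ⟨fun σ hσ w => h.stab σ hσ w.1, fun σ hσ u => ?_, ?_⟩
  · show ((actOn M₁ hM₁ σ u - u : M₁) : M) ∈ W
    rw [AddSubgroupClass.coe_sub, coe_actOn]
    exact h.incr σ hσ u.1
  · intro N hN w hw hwN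
    let N' : AddSubgroup M := N.map M₁.subtype
    have hmem : (w : M) ∈ N' := by
      refine h.ce N' ?_ w.1 hw ?_
      · rintro σ hσ _ ⟨u, hu, rfl⟩
        exact ⟨_, hN σ hσ u hu, rfl⟩
      · intro σ hσ
        exact ⟨_, hwN σ hσ, rfl⟩
    obtain ⟨w', hw', hww'⟩ := hmem
    have : w' = w := Subtype.ext hww'
    rw [← this]
    exact hw'

/-- the square relation on `M₁` (asked only for the elements of `M₁`). -/
theorem sq_restrict {W : AddSubgroup M} (M₁ : AddSubgroup M)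
    (hM₁ : ∀ g, ∀ x ∈ M₁, act g x ∈ M₁) {τ : G}
    (hsq : ∀ u ∈ M₁, act τ (act τ u) - u ∈ W) (u : M₁) :
    actOn M₁ hM₁ τ (actOn M₁ hM₁ τ u) - u ∈ W.comap M₁.subtype := by
  show ((actOn M₁ hM₁ τ (actOn M₁ hM₁ τ u) - u : M₁) : M) ∈ W
  rw [AddSubgroupClass.coe_sub, coe_actOn, coe_actOn]
  exact hsq u.1 u.2

end Restrict

/-! ### (CE) ⟹ minimality -/

/-- **`W` is the smallest `I`-stable subgroup containing the increments**: if `L` is `I`-stable and
contains `σ u - u` for all `σ ∈ I` and all `u`, then `W ≤ L`. -/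
theorem ConnPackage.le_of_incr {I D : Set G} {act : G → M → M} {W : AddSubgroup M}
    (h : ConnPackage I D act W) (L : AddSubgroup M)
    (hL : ∀ σ ∈ I, ∀ u ∈ L, act σ u ∈ L) (hincr : ∀ σ ∈ I, ∀ u, act σ u - u ∈ L) : W ≤ L :=
  fun w hw => h.ce L hL w hw fun σ hσ => hincr σ hσ w

end Fermat.Agent.GB.B10.TransferSq
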