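/-
GATE-B / B10' (helper39), file 2: **`isSubquotPow_of_hecke` ON THE FITTING PART OF A HECKE OPERATOR**.

`GH/S32/LocTop.isSubquotPow_of_hecke` (helper47/helper93): a finite group `X` with commuting Hecke and
Galois actions satisfying the Eichler–Shimura/Cayley–Hamilton relations has `(C², ρ)` as a
Galois-equivariant subquotient of a power.  If `t₀` is a Hecke operator with `π t₀ ∈ Cˣ`, the same
theorem applies VERBATIM to the Fitting part `X' = ⋂ t₀ ^ j X` (a Hecke- and Galois-stable subgroup on
which `t₀` is onto): the hypothesis `hker` for `X'` follows from `hker` for `X` because `π t₀` is a unit.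

So no Hecke-equivariant refinement of the subquotient theorem is needed to use a relation that only
holds on `t₀ X` (e.g. on the `p`-new part, `t₀` an old-killer).

* `exists_fitting`             : `X'` with `gal`-, `hecke`-stability and `t₀ X' = X'`;
* `isSubquotPow_of_hecke_fitting` : the subquotient statement for `X'`.
-/
import Fermat.Agent.GH.S32.LocTop
import Fermat.Agent.GB.B10.TransferSq

set_option autoImplicit false

namespace Fermat.Agent.GB.B10.Fitting

open Function Filter Fermat.Agent.GH.S32 Fermat.Agent.GB.B10.TransferSq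

variable {X : Type*} [AddCommGroup X]

/-- the restriction of an additive endomorphism to a stable subgroup. -/
def resEnd (X' : AddSubgroup X) (f : AddMonoid.End X) (hf : ∀ x ∈ X', f x ∈ X') :
    AddMonoid.End X' :=
  AddMonoidHom.codRestrict (AddMonoidHom.comp f X'.subtype) X' fun x => hf x.1 x.2

theorem coe_resEnd (X' : AddSubgroup X) (f : AddMonoid.End X) (hf : ∀ x ∈ X', f x ∈ X')
    (x : X') : ((resEnd X' f hf x : X') : X) = f x.1 := rfl

/-- **the Fitting part** of an additive endomorphism of a finite abelian group: a subgroup `X'`,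
stable under everything commuting with `T`, on which `T` is onto, and containing `T ^ j X` for
`j` large. -/
theorem exists_fitting [Finite X] (T : AddMonoid.End X) :
    ∃ (X' : AddSubgroup X) (j : ℕ), (∀ x, (T ^ j) x ∈ X') ∧ (∀ x ∈ X', ∃ y ∈ X', T y = x) ∧
      ∀ f : AddMonoid.End X, Commute f T → ∀ x ∈ X', f x ∈ X' := by
  obtain ⟨j, hj⟩ := (LinearMap.eventually_iInf_range_pow_eq (T.toIntLinearMap :
    Module.End ℤ X)).exists
  have hpow : ∀ (k : ℕ) (x : X), ((T.toIntLinearMap : Module.End ℤ X) ^ k) x = (T ^ k) x := by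
    intro k
    induction k with
    | zero => intro x; rfl
    | succ k ih =>
      intro x
      rw [pow_succ, pow_succ, Module.End.mul_apply, ih]
      rfl
  have hmem : ∀ x : X, x ∈ LinearMap.range ((T.toIntLinearMap : Module.End ℤ X) ^ j) ↔
      ∃ y, (T ^ j) y = x := by
    intro x
    rw [LinearMap.mem_range]
    exact exists_congr fun y => by rw [hpow]
  refine ⟨(LinearMap.range ((T.toIntLinearMap : Module.End ℤ X) ^ j)).toAddSubgroup, j,
    fun x => ?_, fun x hx => ?_, fun f hf x hx => ?_⟩
  · exact (hmem _).2 ⟨x, rfl⟩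
  · have hx' : x ∈ LinearMap.range ((T.toIntLinearMap : Module.End ℤ X) ^ j) := hx
    have h1 : x ∈ LinearMap.range ((T.toIntLinearMap : Module.End ℤ X) ^ (j + 1)) := by
      rw [← hj] at hx'
      exact (Submodule.mem_iInf _).1 hx' (j + 1)
    obtain ⟨y, hy⟩ := h1
    rw [hpow, pow_succ'] at hy
    exact ⟨(T ^ j) y, (hmem _).2 ⟨y, rfl⟩, hy⟩
  · obtain ⟨y, rfl⟩ := (hmem x).1 hx
    refine (hmem _).2 ⟨f y, ?_⟩
    have hc : Commute f (T ^ j) := hf.pow_right j
    exact (DFunLike.congr_fun hc.eq y).symm

variable {G : Type*} [Group G] {𝒯 : Type*} [CommRing 𝒯] [Finite X]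
  {C : Type*} [CommRing C] [IsLocalRing C]

/-- **LOC on the Fitting part**: in the situation of `isSubquotPow_of_hecke`, if `π t₀` is a unit
then `(C², ρ)` is an equivariant subquotient of a power of the Fitting part `X'` of `hecke t₀`. -/
theorem isSubquotPow_of_hecke_fitting (hecke : 𝒯 →+* AddMonoid.End X) (gal : G →* AddMonoid.End X)
    (hcomm : ∀ t g, Commute (hecke t) (gal g)) (h2 : IsUnit (2 : C)) (π : 𝒯 →+* C)
    (hπ : Surjective π) (hker : ∀ t, hecke t = 0 → π t = 0)
    (ρ : G →* Matrix (Fin 2) (Fin 2) C) (hspan : Submodule.span C (Set.range ρ) = ⊤)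
    {m : ℕ} (hm : (m : AddMonoid.End X) = 0) (δ : G →* (ZMod m)ˣ)
    (hCH : ∀ g, ∃ (t : 𝒯) (c : ℕ), (c : ZMod m) = δ g ∧
      hecke t = gal g + (c : AddMonoid.End X) * gal g⁻¹ ∧ π t = (ρ g).trace)
    (t₀ : 𝒯) (ht₀ : IsUnit (π t₀)) :
    ∃ (X' : AddSubgroup X) (hst : ∀ g : G, ∀ x ∈ X', gal g x ∈ X'),
      (∀ x ∈ X', ∃ y ∈ X', hecke t₀ y = x) ∧
      IsSubquotPow (actOn (act := fun (g : G) (x : X) => gal g x) X' hst)
        (fun g (v : Fin 2 → C) => (ρ g).mulVec v) := by
  obtain ⟨X', j, hj, hsurj, hstab⟩ := exists_fitting (hecke t₀)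
  have hstG : ∀ g : G, ∀ x ∈ X', gal g x ∈ X' := fun g x hx =>
    hstab (gal g) (hcomm t₀ g).symm x hx
  have hstT : ∀ t : 𝒯, ∀ x ∈ X', hecke t x ∈ X' := fun t x hx =>
    hstab (hecke t) (by rw [Commute, SemiconjBy, ← map_mul, ← map_mul, mul_comm]) x hx
  refine ⟨X', hstG, hsurj, ?_⟩
  -- the restricted actions
  let hecke' : 𝒯 →+* AddMonoid.End X' :=
    { toFun := fun t => resEnd X' (hecke t) (hstT t)
      map_one' := by
        refine DFunLike.ext _ _ fun x => Subtype.ext ?_
        rw [coe_resEnd, map_one]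
        rfl
      map_mul' := fun s t => by
        refine DFunLike.ext _ _ fun x => Subtype.ext ?_
        rw [coe_resEnd, map_mul]
        rfl
      map_zero' := by
        refine DFunLike.ext _ _ fun x => Subtype.ext ?_
        rw [coe_resEnd, map_zero]
        rfl
      map_add' := fun s t => by
        refine DFunLike.ext _ _ fun x => Subtype.ext ?_
        rw [coe_resEnd, map_add]
        rfl }
  let gal' : G →* AddMonoid.End X' :=
    { toFun := fun g => resEnd X' (gal g) (hstG g)
      map_one' := by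
        refine DFunLike.ext _ _ fun x => Subtype.ext ?_
        rw [coe_resEnd, map_one]
        rfl
      map_mul' := fun s t => by
        refine DFunLike.ext _ _ fun x => Subtype.ext ?_
        rw [coe_resEnd, map_mul]
        rfl }
  have hh' : ∀ t (x : X'), ((hecke' t x : X') : X) = hecke t x.1 := fun _ _ => rfl
  have hg' : ∀ g (x : X'), ((gal' g x : X') : X) = gal g x.1 := fun _ _ => rfl
  have key := isSubquotPow_of_hecke hecke' gal' ?_ h2 π hπ ?_ ρ hspan (m := m) ?_ δ ?_
  · exact key
  · -- commutation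
    intro t g
    refine DFunLike.ext _ _ fun x => Subtype.ext ?_
    show hecke t (gal g x.1) = gal g (hecke t x.1)
    exact DFunLike.congr_fun (hcomm t g).eq x.1
  · -- `hker` on the Fitting part
    intro t ht
    have h0 : hecke (t * t₀ ^ j) = 0 := by
      refine DFunLike.ext _ _ fun x => ?_
      rw [map_mul, map_pow]
      show hecke t ((hecke t₀ ^ j) x) = 0
      have h1 := congrArg (fun e : AddMonoid.End X' => ((e ⟨_, hj x⟩ : X') : X)) ht
      exact h1
    have h1 := hker _ h0
    rw [map_mul, map_pow] at h1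
    exact (ht₀.pow j).mul_left_eq_zero.mp h1
  · -- torsion
    refine DFunLike.ext _ _ fun x => Subtype.ext ?_
    have h1 := DFunLike.congr_fun hm x.1
    rw [AddMonoid.End.natCast_apply] at h1 ⊢
    rw [AddSubgroup.coe_nsmul]
    exact h1
  · -- Cayley–Hamilton
    intro g
    obtain ⟨t, c, hc, ht, htr⟩ := hCH g
    refine ⟨t, c, hc, ?_, htr⟩
    refine DFunLike.ext _ _ fun x => Subtype.ext ?_
    have h1 : hecke t x.1 = gal g x.1 + (c : AddMonoid.End X) (gal g⁻¹ x.1) :=
      DFunLike.congr_fun ht x.1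
    rw [AddMonoid.End.natCast_apply] at h1
    show ((hecke' t x : X') : X) =
      ((gal' g x + (c : AddMonoid.End X') (gal' g⁻¹ x) : X') : X)
    rw [AddMonoid.End.natCast_apply, AddSubgroup.coe_add, AddSubgroup.coe_nsmul, hh', hg', hg']
    exact h1

end Fermat.Agent.GB.B10.Fitting
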