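/-
GATE-B / B10' (helper39), file 3: **THE LEVEL THEOREM**.

`GH/S32/Inst.isSubquotPow_gal` (helper47) re-run on the FITTING PART of an old-killer `t₀`
(`H.π t₀ ∈ Tˣ`), carrying along a connected package `W_n ≤ K_n` and the twisted square relation
`τ (τ (t₀ x)) - t₀ x ∈ W_n` (`τ ∈ Fr`, e.g. the Frobenius lifts at a place over `p`):

`exists_package_sq_level` : for every ideal `I` of finite index in `T` there is a subgroup
`W' ≤ V ⧸ I V` with the connected package for the level action AND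
`ρ(τ) (ρ(τ) v) - v ∈ W'` for all `τ ∈ Fr`, `v`.

No Hecke-equivariant refinement of the subquotient theorem is used: `t₀` is onto on its Fitting part,
so there the twisted relation is a plain one.
-/
import Fermat.Agent.GH.S32.Inst
import Fermat.Agent.GB.B10.Fitting

set_option autoImplicit false

noncomputable section

namespace Fermat.Agent.GB.B10.Core

open TensorProduct CuspForm Function IsLocalRing
open Fermat.Agent.Common_helper32 Fermat.Agent.GJ.Tate Fermat.Agent.GH.S32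
  Fermat.Agent.GH.S32.InstCore Fermat.Agent.GH.S32.InstAux47 Fermat.Agent.GH.S32.Inst
  Fermat.Agent.GS.Alg.Transfer Fermat.Agent.GB.B10.TransferSq Fermat.Agent.GB.B10.Fitting

variable {p : ℕ} {N : ℕ} [NeZero N] {S : Finset ℕ}
  {𝒪 : Type} [CommRing 𝒪] [IsDomain 𝒪] [IsDiscreteValuationRing 𝒪]
  [IsAdicComplete (IsLocalRing.maximalIdeal 𝒪) 𝒪]
  {θ : CuspForm.heckeAlgebra N 2 (↑S : Set ℕ) →+* IsLocalRing.ResidueField 𝒪}
  {T : Type} [CommRing T] [IsLocalRing T] [IsNoetherianRing T]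
  [IsAdicComplete (IsLocalRing.maximalIdeal T) T] [Algebra 𝒪 T] [IsLocalHom (algebraMap 𝒪 T)]
  [Module.Finite 𝒪 T] [Module.Free 𝒪 T]

/-- the level action is a group action. -/
theorem levelAction_inv_levelAction' {A : Type} [CommRing A] [IsLocalRing A] (ρ : GaloisRepAdic A)
    (I : Ideal A) (σ : GQ) (w : ρ.V ⧸ (I • (⊤ : Submodule A ρ.V))) :
    ρ.levelAction I σ⁻¹ (ρ.levelAction I σ w) = w := by
  obtain ⟨v, rfl⟩ := Submodule.mkQ_surjective _ w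
  show Submodule.Quotient.mk (ρ.ρ σ⁻¹ (ρ.ρ σ v)) = Submodule.Quotient.mk v
  rw [← Module.End.mul_apply, ← map_mul, inv_mul_cancel, map_one, Module.End.one_apply]

/-- the connected package on a trivial group. -/
theorem connPackage_of_subsingleton {G M : Type*} [AddCommGroup M] [Subsingleton M]
    (I D : Set G) (act : G → M → M) : ConnPackage I D act (⊤ : AddSubgroup M) :=
  ⟨fun _ _ _ => ⟨fun _ => AddSubgroup.mem_top _, fun _ => AddSubgroup.mem_top _⟩,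
    fun _ _ _ => AddSubgroup.mem_top _,
    fun N _ w _ _ => by rw [Subsingleton.elim w 0]; exact N.zero_mem⟩

/-- **THE LEVEL THEOREM.** -/
theorem exists_package_sq_level (D : KumLevelData N S p) (hm : D.Comm)
    [Finite (IsLocalRing.ResidueField 𝒪)] [CharZero 𝒪]
    (hp : p.Prime) (hp2 : p ≠ 2) (hp𝒪 : (p : 𝒪) ∈ maximalIdeal 𝒪)
    (hpS : p ∈ S) (hNS : ∀ q : ℕ, q.Prime → q ∣ N → q ∈ S)
    (H : CuspForm.HeckeGaloisRepDatum N (↑S : Set ℕ) 𝒪 θ T) (I : Ideal T) [Finite (T ⧸ I)]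
    (t₀ : heckeAlgebra N 2 (↑S : Set ℕ)) (ht₀ : IsUnit (H.π t₀))
    {Ip Dp Fr : Set GQ} (hID : Ip ⊆ Dp) (hDinv : ∀ σ ∈ Dp, σ⁻¹ ∈ Dp)
    (hpack : ∀ n : ℕ, ∃ W : AddSubgroup (D.K n),
      ConnPackage Ip Dp (fun (σ : GQ) (x : D.K n) => D.gal n σ x) W ∧
      ∀ τ ∈ Fr, ∀ x : D.K n,
        D.gal n τ (D.gal n τ (D.heckeHom n t₀ x)) - D.heckeHom n t₀ x ∈ W) :
    ∃ W' : AddSubgroup (H.ρ.V ⧸ (I • (⊤ : Submodule T H.ρ.V))),
      ConnPackage Ip Dp (fun (σ : GQ) => H.ρ.levelAction I σ) W' ∧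
      ∀ τ ∈ Fr, ∀ v, H.ρ.levelAction I τ (H.ρ.levelAction I τ v) - v ∈ W' := by
  have : Fact p.Prime := ⟨hp⟩
  by_cases hI : I = ⊤
  · -- the trivial case
    have : Subsingleton (H.ρ.V ⧸ (I • (⊤ : Submodule T H.ρ.V))) := by
      rw [hI, Submodule.top_smul]
      exact Submodule.Quotient.subsingleton_iff.mpr rfl
    exact ⟨⊤, connPackage_of_subsingleton _ _ _, fun _ _ _ => AddSubgroup.mem_top _⟩
  have hpT : (p : T) ∈ maximalIdeal T := by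
    have h := map_nonunit (algebraMap 𝒪 T) (p : 𝒪) hp𝒪
    rwa [map_natCast] at h
  have hnt : Nontrivial (T ⧸ I) := Ideal.Quotient.nontrivial_iff.mpr hI
  have hloc : IsLocalRing (T ⧸ I) :=
    IsLocalRing.of_surjective' (Ideal.Quotient.mk I) Ideal.Quotient.mk_surjective
  have h2 : IsUnit (2 : T ⧸ I) := by
    have := (isUnit_two hp hp2 hpT).map (Ideal.Quotient.mk I)
    rwa [map_ofNat] at this
  obtain ⟨k, hk⟩ := exists_pow_le_of_finite_quotient I hI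
  obtain ⟨c, hc⟩ := exists_shift D 𝒪
  set n := k + c with hn
  obtain ⟨W, hW, hWsq⟩ := hpack n
  -- the matrix form of `ρ mod I`
  let b : Module.Basis (Fin 2) T H.ρ.V := Module.finBasisOfFinrankEq T H.ρ.V H.ρ.finrank_eq
  have hspan := RhoC.span_rhoC b I H.ρ.ρ (span_range_eq_top_of_residual_absIrr H.ρ H.residual_absIrr)
  -- finiteness
  have hp0 : ((p ^ n : ℕ) : 𝒪) ≠ 0 := by
    rw [Nat.cast_ne_zero]
    exact pow_ne_zero n hp.ne_zero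
  have hfinι : Finite (𝒪 ⧸ Ideal.span {((p ^ n : ℕ) : 𝒪)}) := finite_quotient_span hp0
  let _ : Fintype (𝒪 ⧸ Ideal.span {((p ^ n : ℕ) : 𝒪)}) := Fintype.ofFinite _
  let e₀ : (𝒪 ⧸ Ideal.span {((p ^ n : ℕ) : 𝒪)}) ≃
      Fin (Fintype.card (𝒪 ⧸ Ideal.span {((p ^ n : ℕ) : 𝒪)})) := Fintype.equivFin _
  set r := Fintype.card (𝒪 ⧸ Ideal.span {((p ^ n : ℕ) : 𝒪)}) with hr
  let s : Fin r → 𝒪 := fun i => Quotient.out (e₀.symm i)
  have hs : ∀ a : 𝒪, ∃ (i : Fin r) (a' : 𝒪), a = s i + ((p ^ n : ℕ) : 𝒪) * a' := by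
    intro a
    refine ⟨e₀ (Ideal.Quotient.mk _ a), ?_⟩
    have h1 : Ideal.Quotient.mk (Ideal.span {((p ^ n : ℕ) : 𝒪)})
        (a - s (e₀ (Ideal.Quotient.mk _ a))) = 0 := by
      rw [map_sub, sub_eq_zero]
      show _ = Ideal.Quotient.mk _ (Quotient.out (e₀.symm (e₀ (Ideal.Quotient.mk _ a))))
      rw [Equiv.symm_apply_apply]
      exact (Quotient.out_eq _).symm
    rw [Ideal.Quotient.eq_zero_iff_mem, Ideal.mem_span_singleton'] at h1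
    obtain ⟨a', ha'⟩ := h1
    exact ⟨a', by rw [mul_comm, ha']; ring⟩
  have hKfin : Finite (D.K n) := finite_K D hp.ne_zero n
  have hXfin : Finite (𝒪 ⊗[ℤ] D.K n) :=
    Finite.of_surjective _ (sumMap_surjective D 𝒪 s n hs)
  -- STEP 1: the package and the twisted square relation on `X = 𝒪 ⊗ K n`
  let X₁ : AddSubgroup (Fin r → D.K n) := ⊤
  let f : X₁ →+ 𝒪 ⊗[ℤ] D.K n := (sumMap D 𝒪 s n).comp X₁.subtype
  have hf : Surjective f := by
    intro y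
    obtain ⟨x, rfl⟩ := sumMap_surjective D 𝒪 s n hs y
    exact ⟨⟨x, AddSubgroup.mem_top _⟩, rfl⟩
  have hst : ∀ (g : GQ), ∀ x ∈ X₁, (fun i => D.gal n g (x i)) ∈ X₁ :=
    fun _ _ _ => AddSubgroup.mem_top _
  have heq : ∀ (g : GQ) (x : X₁), f ⟨fun i => D.gal n g (x.1 i), hst g x.1 x.2⟩ =
      galX D 𝒪 n g (f x) := fun g x => (galX_sumMap D 𝒪 s n g x.1).symm
  have hinvX : ∀ σ ∈ Dp, ∃ τ ∈ Dp, ∀ w : 𝒪 ⊗[ℤ] D.K n,
      galX D 𝒪 n τ (galX D 𝒪 n σ w) = w := by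
    intro σ hσ
    refine ⟨σ⁻¹, hDinv σ hσ, fun w => ?_⟩
    have h1 : galX D 𝒪 n σ⁻¹ * galX D 𝒪 n σ = 1 := by rw [← map_mul, inv_mul_cancel, map_one]
    exact DFunLike.congr_fun h1 w
  set WX : AddSubgroup (𝒪 ⊗[ℤ] D.K n) := transferW X₁ f W with hWX
  have hpackX : ConnPackage Ip Dp (fun (σ : GQ) (x : 𝒪 ⊗[ℤ] D.K n) => galX D 𝒪 n σ x) WX :=
    connPackage_transferW (fun σ x y => map_add (D.gal n σ) x y) hID hinvX hW hf hst heq
  set T₀ : AddMonoid.End (𝒪 ⊗[ℤ] D.K n) := heckeX D 𝒪 n ((1 : 𝒪) ⊗ₜ t₀) with hT₀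
  have hT₀sum : ∀ y : Fin r → D.K n,
      T₀ (sumMap D 𝒪 s n y) = sumMap D 𝒪 s n (fun i => D.heckeHom n t₀ (y i)) := by
    intro y
    rw [hT₀, heckeX_one_tmul, sumMap_apply, sumMap_apply, map_sum]
    exact Finset.sum_congr rfl fun i _ => ringX_tmul D 𝒪 n _ (s i) (y i)
  have hsqX : ∀ τ ∈ Fr, ∀ x : 𝒪 ⊗[ℤ] D.K n,
      galX D 𝒪 n τ (galX D 𝒪 n τ (T₀ x)) - T₀ x ∈ WX := by
    intro τ hτ x
    obtain ⟨y, rfl⟩ := sumMap_surjective D 𝒪 s n hs x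
    rw [hT₀sum, galX_sumMap, galX_sumMap, ← map_sub]
    refine mem_transferW.2 ⟨⟨_, AddSubgroup.mem_top _⟩, fun i => ?_, rfl⟩
    exact hWsq τ hτ (y i)
  -- the Frobenius hypothesis in the shape of `exists_hecke_approx`
  have hfrob : ∀ ℓ : ℕ, ℓ.Prime → ℓ ∉ S → ∀ A : ValuationSubring Qb, A.LiesOverPrime ℓ →
      ∀ σ : GQ, A.IsFrobeniusAt σ ℓ →
        LinearMap.charpoly (H.ρ.ρ σ) =
          Polynomial.X ^ 2 - Polynomial.C (H.π (heckeTl N S ℓ)) * Polynomial.X +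
            Polynomial.C ((ℓ : T)) := by
    intro ℓ hℓ hℓS A hA σ hσ
    have hℓN : ¬ ℓ ∣ N := fun h => hℓS (hNS ℓ hℓ h)
    have hℓS' : ℓ ∉ (↑S : Set ℕ) := by simpa using hℓS
    rw [heckeTl_eq hℓ hℓN hℓS']
    exact H.charpoly_frob ℓ hℓ hℓN hℓS' A hA σ hσ
  -- STEP 2: the subquotient theorem on the Fitting part of `T₀`
  have ht₀' : IsUnit (((Ideal.Quotient.mk I).comp (piT H).toRingHom) ((1 : 𝒪) ⊗ₜ t₀)) := by
    show IsUnit (Ideal.Quotient.mk I (piT H ((1 : 𝒪) ⊗ₜ t₀)))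
    rw [piT_tmul, map_one, one_mul]
    exact ht₀.map _
  have hkerX : ∀ t' : 𝒪 ⊗[ℤ] heckeAlgebra N 2 (↑S : Set ℕ), heckeX D 𝒪 n t' = 0 →
      ((Ideal.Quotient.mk I).comp (piT H).toRingHom) t' = 0 := by
    intro t' ht'
    obtain ⟨t'', rfl⟩ := hc k t' ht'
    show Ideal.Quotient.mk I (piT H (((p : 𝒪) ^ k) • t'')) = 0
    rw [map_smul, Ideal.Quotient.eq_zero_iff_mem, Algebra.smul_def, map_pow, map_natCast]
    exact I.mul_mem_right _ (hk (Ideal.pow_mem_pow hpT k))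
  have hCHX : ∀ g : GQ, ∃ (t : 𝒪 ⊗[ℤ] heckeAlgebra N 2 (↑S : Set ℕ)) (c' : ℕ),
      (c' : ZMod (p ^ n)) = cycMod p n g ∧
      heckeX D 𝒪 n t = galX D 𝒪 n g + (c' : AddMonoid.End (𝒪 ⊗[ℤ] D.K n)) * galX D 𝒪 n g⁻¹ ∧
      ((Ideal.Quotient.mk I).comp (piT H).toRingHom) t = (RhoC.rhoC b I H.ρ.ρ g).trace := by
    intro g
    obtain ⟨t, c', h1, h2', h3⟩ := exists_hecke_approx D.tateLevels hpS H.π H.ρ hfrob k n g
    refine ⟨(1 : 𝒪) ⊗ₜ t, c', h3.symm, ?_, ?_⟩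
    · rw [heckeX_one_tmul, galX_apply, galX_apply]
      have h2'' : D.heckeHom n t = D.gal n g + (c' : AddMonoid.End (D.K n)) * D.gal n g⁻¹ := h2'
      rw [h2'', map_add, map_mul, map_natCast]
    · show Ideal.Quotient.mk I (piT H ((1 : 𝒪) ⊗ₜ t)) = _
      rw [piT_tmul, map_one, one_mul, RhoC.trace_rhoC, eq_comm, ← sub_eq_zero, ← map_sub,
        Ideal.Quotient.eq_zero_iff_mem]
      exact hk h1
  obtain ⟨X', hstX', hsurjX', hsub⟩ := isSubquotPow_of_hecke_fitting (heckeX D 𝒪 n) (galX D 𝒪 n)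
    (commute_heckeX_galX D 𝒪 hm hNS n) h2
    ((Ideal.Quotient.mk I).comp (piT H).toRingHom)
    (Ideal.Quotient.mk_surjective.comp (piT_surjective H)) hkerX (RhoC.rhoC b I H.ρ.ρ) hspan
    (natCast_pow_eq_zero D 𝒪 n) (cycMod p n) hCHX ((1 : 𝒪) ⊗ₜ t₀) ht₀'
  -- STEP 3: restrict the package to the Fitting part; there the square relation is plain
  have hpackX' := ConnPackage.restrict hpackX X' hstX'
  have hsqX' : ∀ τ ∈ Fr, ∀ u : X',
      actOn (act := fun (g : GQ) (x : 𝒪 ⊗[ℤ] D.K n) => galX D 𝒪 n g x) X' hstX' τ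
        (actOn X' hstX' τ u) - u ∈ WX.comap X'.subtype := by
    intro τ hτ u
    refine sq_restrict X' hstX' (fun u hu => ?_) u
    obtain ⟨y, -, rfl⟩ := hsurjX' u hu
    exact hsqX τ hτ y
  -- STEP 4: transfer to `(T ⧸ I)²`
  have haddX' : ∀ (σ : GQ) (x y : X'),
      actOn (act := fun (g : GQ) (x : 𝒪 ⊗[ℤ] D.K n) => galX D 𝒪 n g x) X' hstX' σ (x + y) =
        actOn X' hstX' σ x + actOn X' hstX' σ y := by
    intro σ x y
    apply Subtype.ext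
    show galX D 𝒪 n σ (x.1 + y.1) = galX D 𝒪 n σ x.1 + galX D 𝒪 n σ y.1
    exact map_add _ _ _
  have hinvC : ∀ σ ∈ Dp, ∃ τ ∈ Dp, ∀ w : Fin 2 → T ⧸ I,
      (RhoC.rhoC b I H.ρ.ρ τ).mulVec ((RhoC.rhoC b I H.ρ.ρ σ).mulVec w) = w := by
    intro σ hσ
    refine ⟨σ⁻¹, hDinv σ hσ, fun w => ?_⟩
    rw [Matrix.mulVec_mulVec, ← map_mul, inv_mul_cancel, map_one, Matrix.one_mulVec]
  obtain ⟨WC, hpackC, hsqC⟩ := exists_transfer haddX' hID hinvC hpackX' hsqX' hsub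
  -- STEP 5: transfer to `V ⧸ I V`
  have link3 : IsSubquotPow (fun (σ : GQ) (v : Fin 2 → T ⧸ I) => (RhoC.rhoC b I H.ρ.ρ σ).mulVec v)
      (fun (σ : GQ) => H.ρ.levelAction I σ) :=
    IsSubquotPow.of_addEquiv (RhoC.vecEquiv b I) fun σ v =>
      RhoC.vecEquiv_mulVec b I H.ρ.ρ σ _ v
  have hinvV : ∀ σ ∈ Dp, ∃ τ ∈ Dp, ∀ w : H.ρ.V ⧸ (I • (⊤ : Submodule T H.ρ.V)),
      H.ρ.levelAction I τ (H.ρ.levelAction I σ w) = w :=
    fun σ hσ => ⟨σ⁻¹, hDinv σ hσ, fun w => levelAction_inv_levelAction' H.ρ I σ w⟩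
  exact exists_transfer (fun σ x y => Matrix.mulVec_add _ x y) hID hinvV hpackC hsqC link3

end Fermat.Agent.GB.B10.Core
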