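/-
GATE-B / B10' (helper39), TOP in hypothesis form: **`p`-new ⟹ strictly ordinary**.

For a Hecke–Galois datum `H` and Kummer level data `D` (with `D.Comm`):

* `hord`, `hdet` : `H.ρ` ordinary at `p` (S33) with cyclotomic determinant;
* `t₀` with `H.π t₀ ∈ Tˣ` (an old-killer);
* `hpack` : at every place `P ∣ p` and every level `n` a subgroup `W ≤ D.K n` with the connected
  package of GATE-S and `τ (τ (t₀ x)) - t₀ x ∈ W` for every Frobenius lift `τ` at `P`
  (= N1 + N2 + `ConnM0` on the concrete Kummer model);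

THEN `H.ρ.IsStrictOrdinaryAt p`.

Proof: `Core.exists_package_sq_level` (Fitting part of `t₀` + transfer) at `I = 𝔪ⁿ`, then helper78's
`GB/New/StrictOfFrob.isStrictOrdinaryAt_of_levels_frob` ((CE) ⟹ `W'_n ⊆ L_n`, Krull, Frobenius lifts
generate `D_P` modulo open subgroups, helper93's `StrictOfSq`).
-/
import Fermat.Agent.GB.B10.Core
import Fermat.Agent.GB.New.StrictOfFrob
import Fermat.Agent.GS.Old.OrdShapeAdic
import Fermat.Agent.GH.S32.InstAux

set_option autoImplicit false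

namespace Fermat.Agent.GB.B10.Top

open CuspForm IsLocalRing
open Fermat.Agent.Common_helper32 Fermat.Agent.GJ.Tate Fermat.Agent.GS.Alg.Transfer

local notation "Qb" => AlgebraicClosure ℚ

variable {p : ℕ} {N : ℕ} [NeZero N] {S : Finset ℕ}
  {𝒪 : Type} [CommRing 𝒪] [IsDomain 𝒪] [IsDiscreteValuationRing 𝒪]
  [IsAdicComplete (IsLocalRing.maximalIdeal 𝒪) 𝒪]
  {θ : CuspForm.heckeAlgebra N 2 (↑S : Set ℕ) →+* IsLocalRing.ResidueField 𝒪}
  {T : Type} [CommRing T] [IsLocalRing T] [IsNoetherianRing T]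
  [IsAdicComplete (IsLocalRing.maximalIdeal T) T] [Algebra 𝒪 T] [IsLocalHom (algebraMap 𝒪 T)]
  [Module.Finite 𝒪 T] [Module.Free 𝒪 T]

/-- **B10' in hypothesis form.** -/
theorem isStrictOrdinaryAt_of_pack (D : KumLevelData N S p) (hm : D.Comm)
    [Finite (IsLocalRing.ResidueField 𝒪)] [CharZero 𝒪]
    (hp : p.Prime) (hp2 : p ≠ 2) (hp𝒪 : (p : 𝒪) ∈ maximalIdeal 𝒪)
    (hpS : p ∈ S) (hNS : ∀ q : ℕ, q.Prime → q ∣ N → q ∈ S)
    (H : CuspForm.HeckeGaloisRepDatum N (↑S : Set ℕ) 𝒪 θ T)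
    (hdet : H.ρ.DetIsCyclotomic p) (hord : H.ρ.IsOrdinaryAt p)
    (t₀ : heckeAlgebra N 2 (↑S : Set ℕ)) (ht₀ : IsUnit (H.π t₀))
    (hpack : ∀ P : ValuationSubring Qb, P.LiesOverPrime p → ∀ n : ℕ,
      ∃ W : AddSubgroup (D.K n),
        ConnPackage (↑(P.inertiaSubgroupIn ℚ) : Set GQ) (↑(P.decompositionSubgroup ℚ) : Set GQ)
          (fun (σ : GQ) (x : D.K n) => D.gal n σ x) W ∧
        ∀ τ ∈ {τ : GQ | P.IsFrobeniusAt τ p}, ∀ x : D.K n,
          D.gal n τ (D.gal n τ (D.heckeHom n t₀ x)) - D.heckeHom n t₀ x ∈ W) :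
    H.ρ.IsStrictOrdinaryAt p := by
  have hfinres : Finite (IsLocalRing.ResidueField T) :=
    Fermat.Agent.GH.S32.finite_residueField_of_moduleFinite 𝒪 T
  refine Fermat.Agent.GB.New.StrictOfFrob.isStrictOrdinaryAt_of_levels_frob H.ρ hp hdet hord
    fun P hP n => ?_
  have : Finite (T ⧸ maximalIdeal T ^ n) :=
    Fermat.Agent.GS.Old.OrdShapeAdic.finite_quotient_maximalIdeal_pow_of_finite_residueField n
  exact Fermat.Agent.GB.B10.Core.exists_package_sq_level D hm hp hp2 hp𝒪 hpS hNS H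
    (maximalIdeal T ^ n) t₀ ht₀
    (fun σ hσ => by
      have hσ' : σ ∈ P.inertiaSubgroupIn ℚ := hσ
      unfold ValuationSubring.inertiaSubgroupIn at hσ'
      rw [Subgroup.mem_map] at hσ'
      obtain ⟨i', _, rfl⟩ := hσ'
      exact i'.2)
    (fun σ hσ => (P.decompositionSubgroup ℚ).inv_mem hσ) (hpack P hP)

end Fermat.Agent.GB.B10.Top
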