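/-
GATE-B / B10' (helper39), TOP, binder-free: **`p`-new ⟹ strictly ordinary at `p`**.

Level `N = N' * p`, `p ∥ N`, `p` odd (and `2 ∣ N` when `p = 3`).  For a Hecke–Galois datum `H` of
level `N` and an OLD-KILLER `P` (a polynomial in the `T_ℓ`, `ℓ ∉ S`, with `P(T^{N'}) = 0` at level
`N'` and `H.π (P(T^N))` a unit of `T` — i.e. the eigensystem of `H` does not come from level `N'`):

  `H.ρ` ordinary at `p`  ⟹  `H.ρ` STRICTLY ordinary at `p`.

This discharges the binder `hpack` of `Top.isStrictOrdinaryAt_of_pack` on the concrete Kummer level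
data `KumLevelHecke.levelData`:

* `W := M⁰_{pⁿ}` pulled back along `toTors` (`ConnM0.connPackage_M0tors_all`, helper30 + GATE-S);
* `(τ² - 1) t₀ x ∈ ker r₁ ⊓ ker r₂` (`FrobSqLevel.frobSq_heckeHom_mem`, helper32 N1) and
  `ker r₁ ⊓ ker r₂ ⊆ M⁰` (`Phi2.Merge.kumTorsionBy_mem_M0mod`, helper69 N2).

Exports:
* `connPackage_comap_addEquiv` : transport of a `ConnPackage` along an equivariant `≃+`;
* `hpack_levelData`            : the binder `hpack` of `Top.isStrictOrdinaryAt_of_pack`;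
* `isStrictOrdinaryAt_of_killer`     : `hord` as a hypothesis;
* `isStrictOrdinaryAt_of_killer_res` : `hord` from S33 (`hres` = residual ordinarity).
-/
import Fermat.Agent.GB.B10.Top
import Fermat.Agent.GB.B10.FrobSqLevel
import Fermat.Agent.GB.B10.Phi2.Merge
import Fermat.Agent.GB.B10.ConnM0
import Fermat.Agent.GS.DetCyc
import Fermat.Agent.GS.Top.Aux3

set_option autoImplicit false
set_option linter.unusedSectionVars false

namespace Fermat.Agent.GB.B10.Pack

open CuspForm IsLocalRing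
open Fermat.Agent.Common_helper32 Fermat.Agent.GJ.Tate Fermat.Agent.GS.Alg.Transfer
open Fermat.Agent.GK.AL Fermat.Agent.GK.New Fermat.Agent.GK.UqKronecker
open Fermat.Agent.GB.B10.KumLevelHecke Fermat.Agent.GB.B10.ConnM0

local notation "Qb" => AlgebraicClosure ℚ

/-! ### transport of the connected package along an equivariant equivalence -/

section Comap

variable {G : Type*} {M M' : Type*} [AddCommGroup M] [AddCommGroup M']

/-- a `ConnPackage` pulls back along an equivariant additive equivalence. -/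
theorem connPackage_comap_addEquiv {I D : Set G} {act : G → M → M} {act' : G → M' → M'}
    (e : M' ≃+ M) (he : ∀ σ x, e (act' σ x) = act σ (e x)) {W : AddSubgroup M}
    (h : ConnPackage I D act W) : ConnPackage I D act' (W.comap e.toAddMonoidHom) := by
  have hmem : ∀ x : M', x ∈ W.comap e.toAddMonoidHom ↔ e x ∈ W := fun x => Iff.rfl
  have he' : ∀ σ (y : M), e.symm (act σ y) = act' σ (e.symm y) := by
    intro σ y
    apply e.injective
    rw [he, AddEquiv.apply_symm_apply, AddEquiv.apply_symm_apply]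
  refine ⟨?_, ?_, ?_⟩
  · intro σ hσ w
    rw [hmem, hmem, he]
    exact h.stab σ hσ (e w)
  · intro σ hσ u
    rw [hmem, map_sub, he]
    exact h.incr σ hσ (e u)
  · intro N hN w hw hwN
    have hN₁ : ∀ y : M, y ∈ N.comap e.symm.toAddMonoidHom ↔ e.symm y ∈ N := fun y => Iff.rfl
    have key := h.ce (N.comap e.symm.toAddMonoidHom)
      (fun σ hσ u hu => by
        rw [hN₁] at hu ⊢
        rw [he']
        exact hN σ hσ _ hu)
      (e w) ((hmem w).1 hw)
      (fun σ hσ => by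
        rw [hN₁, map_sub, he', AddEquiv.symm_apply_apply]
        exact hwN σ hσ)
    rw [hN₁, AddEquiv.symm_apply_apply] at key
    exact key

end Comap

/-! ### the binder `hpack` on the concrete level data -/

section Pack

variable {N' p : ℕ} [NeZero N'] [Fact p.Prime] {S : Finset ℕ}

/-- **the binder `hpack` of `Top.isStrictOrdinaryAt_of_pack`**, for the concrete level data of level
`N' * p` and the old-killer `t₀ = P (T^{N'p})`. -/
theorem hpack_levelData (hp2 : p ≠ 2) (h : ExactDvd p (N' * p)) (hside : p = 3 → 2 ∣ N' * p)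
    (hpS : p ∈ S) (hNS : ∀ r : ℕ, r.Prime → r ∣ N' * p → r ∈ S)
    (hN'S : ∀ r : ℕ, r.Prime → r ∣ N' → r ∈ S)
    (P : MvPolynomial (PrimeIdx S) ℤ)
    (hP : MvPolynomial.aeval (TfamH (N' := N') (S := S) hN'S) P = 0)
    (A : ValuationSubring Qb) (hA : A.LiesOverPrime p) (n : ℕ) :
    ∃ W : AddSubgroup ((levelData p (N' * p) hpS hNS).K n),
      ConnPackage (↑(A.inertiaSubgroupIn ℚ) : Set GQ) (↑(A.decompositionSubgroup ℚ) : Set GQ)
        (fun (σ : GQ) (x : (levelData p (N' * p) hpS hNS).K n) =>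
          (levelData p (N' * p) hpS hNS).gal n σ x) W ∧
      ∀ τ ∈ {τ : GQ | A.IsFrobeniusAt τ p}, ∀ x : (levelData p (N' * p) hpS hNS).K n,
        (levelData p (N' * p) hpS hNS).gal n τ ((levelData p (N' * p) hpS hNS).gal n τ
            ((levelData p (N' * p) hpS hNS).heckeHom n (MvPolynomial.aeval (TfamH hNS) P) x))
          - (levelData p (N' * p) hpS hNS).heckeHom n (MvPolynomial.aeval (TfamH hNS) P) x ∈ W := by
  have hp : p.Prime := Fact.out
  have : NeZero p := ⟨hp.ne_zero⟩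
  have : NeZero (p ^ n) := ⟨pow_ne_zero n hp.ne_zero⟩
  refine ⟨(M0tors A h n).comap (toTors p (N' * p) hpS hNS n).toAddMonoidHom, ?_, ?_⟩
  · exact connPackage_comap_addEquiv (toTors p (N' * p) hpS hNS n)
      (fun σ x => toTors_gal p (N' * p) hpS hNS n σ x)
      (connPackage_M0tors_all hp2 h hside A hA n)
  · intro τ hτ x
    have hτ' : A.IsFrobeniusAt τ p := hτ
    have key := Fermat.Agent.GB.B10.FrobSqLevel.frobSq_heckeHom_mem h hpS hNS hN'S hA hτ' P hP n x
    rw [AddSubgroup.mem_inf] at key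
    show toTors p (N' * p) hpS hNS n _ ∈ M0tors A h n
    rw [mem_M0tors_iff, toTors_apply]
    exact Fermat.Agent.GB.B10.Phi2.Merge.kumTorsionBy_mem_M0mod h hA n key.1 key.2

end Pack

/-! ### the top theorems -/

section Top

variable {N' p : ℕ} [NeZero N'] [Fact p.Prime] {S : Finset ℕ}
  {𝒪 : Type} [CommRing 𝒪] [IsDomain 𝒪] [IsDiscreteValuationRing 𝒪]
  [IsAdicComplete (IsLocalRing.maximalIdeal 𝒪) 𝒪]
  {θ : CuspForm.heckeAlgebra (N' * p) 2 (↑S : Set ℕ) →+* IsLocalRing.ResidueField 𝒪}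
  {T : Type} [CommRing T] [IsLocalRing T] [IsNoetherianRing T]
  [IsAdicComplete (IsLocalRing.maximalIdeal T) T] [Algebra 𝒪 T] [IsLocalHom (algebraMap 𝒪 T)]
  [Module.Finite 𝒪 T] [Module.Free 𝒪 T]

/-- **B10' (`p`-new ⟹ strictly ordinary)**, `hord` as a hypothesis: level `N' * p` with `p ∤ N'`,
an old-killer `P` (`P (T^{N'}) = 0`, `H.π (P (T^{N'p}))` a unit). -/
theorem isStrictOrdinaryAt_of_killer [Finite (IsLocalRing.ResidueField 𝒪)] [CharZero 𝒪]
    (hp2 : p ≠ 2) (hp𝒪 : (p : 𝒪) ∈ maximalIdeal 𝒪)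
    (h : ExactDvd p (N' * p)) (hside : p = 3 → 2 ∣ N' * p)
    (hNS : ∀ r : ℕ, r.Prime → r ∣ N' * p → r ∈ S) (hN'S : ∀ r : ℕ, r.Prime → r ∣ N' → r ∈ S)
    (H : CuspForm.HeckeGaloisRepDatum (N' * p) (↑S : Set ℕ) 𝒪 θ T)
    (hord : H.ρ.IsOrdinaryAt p)
    (P : MvPolynomial (PrimeIdx S) ℤ)
    (hP : MvPolynomial.aeval (TfamH (N' := N') (S := S) hN'S) P = 0)
    (hPu : IsUnit (H.π (MvPolynomial.aeval (TfamH hNS) P))) :
    H.ρ.IsStrictOrdinaryAt p := by
  have hp : p.Prime := Fact.out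
  have hpS : p ∈ S := hNS p hp (dvd_mul_left p N')
  exact Fermat.Agent.GB.B10.Top.isStrictOrdinaryAt_of_pack (levelData p (N' * p) hpS hNS)
    (levelData_comm p (N' * p) hpS hNS) hp hp2 hp𝒪 hpS hNS H
    (Fermat.Agent.GS.DetCyc.detIsCyclotomic hp hp𝒪 hpS H) hord
    (MvPolynomial.aeval (TfamH hNS) P) hPu
    (fun A hA n => hpack_levelData hp2 h hside hpS hNS hN'S P hP A hA n)

/-- **B10' with `hord` from S33**: residual ordinarity + old-killer ⟹ strictly ordinary. -/
theorem isStrictOrdinaryAt_of_killer_res [Finite (IsLocalRing.ResidueField 𝒪)] [CharZero 𝒪]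
    (hp2 : p ≠ 2) (hp𝒪 : (p : 𝒪) ∈ maximalIdeal 𝒪)
    (h : ExactDvd p (N' * p)) (hside : p = 3 → 2 ∣ N' * p)
    (hNS : ∀ r : ℕ, r.Prime → r ∣ N' * p → r ∈ S) (hN'S : ∀ r : ℕ, r.Prime → r ∣ N' → r ∈ S)
    (H : CuspForm.HeckeGaloisRepDatum (N' * p) (↑S : Set ℕ) 𝒪 θ T)
    (hres : (GaloisRepAdic.ofResidualGaloisRep H.ρ.residual).IsOrdinaryAt p)
    (P : MvPolynomial (PrimeIdx S) ℤ)
    (hP : MvPolynomial.aeval (TfamH (N' := N') (S := S) hN'S) P = 0)
    (hPu : IsUnit (H.π (MvPolynomial.aeval (TfamH hNS) P))) :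
    H.ρ.IsStrictOrdinaryAt p := by
  have hp : p.Prime := Fact.out
  refine isStrictOrdinaryAt_of_killer hp2 hp𝒪 h hside hNS hN'S H ?_ P hP hPu
  exact Fermat.Agent.GS.Top.Aux3.s33_of_frameNodes hp hp2 hp𝒪 ⟨h.dvd, h.not_sq⟩ hNS H hres
    (fun N'' _ h'' hside'' =>
      Fermat.Agent.GS.Top.FrameNodeAll.frameNode_all p N'' h'' hp2 hside'')

end Top

end Fermat.Agent.GB.B10.Pack
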