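/-
GATE-B / B10' (helper39), the consumer forms of **`p`-new ⟹ strictly ordinary at `p`**.

For a Hecke–Galois datum `H : HeckeGaloisRepDatum N S 𝒪 θ T` of a level `N = N' * p`, `p ∤ N'`,
`p` odd (`2 ∣ N` when `p = 3`), with `H.ρ` ordinary at `p` (S33: from residual ordinarity):

* `isUnit_pi_of_theta_ne_zero`            : `θ t ≠ 0 ⟹ H.π t ∈ Tˣ`;
* `isStrictOrdinaryAt_of_killer_level`    : old-killer `P` (`P (T^{N'}) = 0`, `θ (P (T^N)) ≠ 0`)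
                                            ⟹ `H.ρ.IsStrictOrdinaryAt p`;
* `isStrictOrdinaryAt_of_not_resMod_level`: `θ (T_ℓ) = a_ℓ(W)` and `W` NOT residually modular of
                                            level `N'` ⟹ `H.ρ.IsStrictOrdinaryAt p`
  (`_res` variants: `hord` replaced by the frozen S33 hypothesis `hres`).

The level is a VARIABLE `N` with an equation `hN : N = N' * p` (so that consumers at `N = M`,
`N' = M / p` need no cast).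
-/
import Fermat.Agent.GB.B10.Pack
import Fermat.Agent.GB.B10.KillerPlug

set_option autoImplicit false
set_option linter.unusedSectionVars false

namespace Fermat.Agent.GB.B10.Consumer

open CuspForm IsLocalRing
open Fermat.Agent.GK.AL Fermat.Agent.GK.New

variable {N N' p : ℕ} [NeZero N] [NeZero N'] [Fact p.Prime] {S : Finset ℕ}
  {𝒪 : Type} [CommRing 𝒪] [IsDomain 𝒪] [IsDiscreteValuationRing 𝒪]
  [IsAdicComplete (IsLocalRing.maximalIdeal 𝒪) 𝒪]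
  {θ : CuspForm.heckeAlgebra N 2 (↑S : Set ℕ) →+* IsLocalRing.ResidueField 𝒪}
  {T : Type} [CommRing T] [IsLocalRing T] [IsNoetherianRing T]
  [IsAdicComplete (IsLocalRing.maximalIdeal T) T] [Algebra 𝒪 T] [IsLocalHom (algebraMap 𝒪 T)]
  [Module.Finite 𝒪 T] [Module.Free 𝒪 T]

/-- `θ t ≠ 0 ⟹ H.π t` is a unit of `T`. -/
theorem isUnit_pi_of_theta_ne_zero (H : CuspForm.HeckeGaloisRepDatum N (↑S : Set ℕ) 𝒪 θ T)
    {t : heckeAlgebra N 2 (↑S : Set ℕ)} (ht : θ t ≠ 0) : IsUnit (H.π t) := by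
  by_contra hnu
  have hmem : H.π t ∈ maximalIdeal T := (IsLocalRing.mem_maximalIdeal _).2 hnu
  have h0 : IsLocalRing.residue T (H.π t) = 0 := (IsLocalRing.residue_eq_zero_iff _).2 hmem
  rw [H.residue_π t] at h0
  exact ht ((map_eq_zero _).1 h0)

/-- `p ∤ N'` gives `p ∥ N' * p`. -/
theorem exactDvd_mul_self (hpN' : ¬ p ∣ N') : ExactDvd p (N' * p) := by
  have hp : p.Prime := Fact.out
  refine ⟨hp, dvd_mul_left p N', fun h2 => hpN' ?_⟩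
  rw [pow_two] at h2
  exact (Nat.mul_dvd_mul_iff_right hp.pos).1 h2

/-- **B10' with an old-killer**, level `N = N' * p` as a variable. -/
theorem isStrictOrdinaryAt_of_killer_level [Finite (IsLocalRing.ResidueField 𝒪)] [CharZero 𝒪]
    (hN : N = N' * p) (hpN' : ¬ p ∣ N') (hp2 : p ≠ 2) (hp𝒪 : (p : 𝒪) ∈ maximalIdeal 𝒪)
    (hside : p = 3 → 2 ∣ N)
    (hNS : ∀ r : ℕ, r.Prime → r ∣ N → r ∈ S) (hN'S : ∀ r : ℕ, r.Prime → r ∣ N' → r ∈ S)
    (H : CuspForm.HeckeGaloisRepDatum N (↑S : Set ℕ) 𝒪 θ T)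
    (hord : H.ρ.IsOrdinaryAt p)
    (P : MvPolynomial (PrimeIdx S) ℤ)
    (hP : MvPolynomial.aeval (TfamH (N' := N') (S := S) hN'S) P = 0)
    (hPθ : θ (MvPolynomial.aeval (TfamH hNS) P) ≠ 0) :
    H.ρ.IsStrictOrdinaryAt p := by
  subst hN
  exact Fermat.Agent.GB.B10.Pack.isStrictOrdinaryAt_of_killer hp2 hp𝒪 (exactDvd_mul_self hpN')
    hside hNS hN'S H hord P hP (isUnit_pi_of_theta_ne_zero H hPθ)

/-- the same with `hord` from S33 (`hres` = residual ordinarity, the frozen S33 hypothesis). -/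
theorem isStrictOrdinaryAt_of_killer_level_res [Finite (IsLocalRing.ResidueField 𝒪)] [CharZero 𝒪]
    (hN : N = N' * p) (hpN' : ¬ p ∣ N') (hp2 : p ≠ 2) (hp𝒪 : (p : 𝒪) ∈ maximalIdeal 𝒪)
    (hside : p = 3 → 2 ∣ N)
    (hNS : ∀ r : ℕ, r.Prime → r ∣ N → r ∈ S) (hN'S : ∀ r : ℕ, r.Prime → r ∣ N' → r ∈ S)
    (H : CuspForm.HeckeGaloisRepDatum N (↑S : Set ℕ) 𝒪 θ T)
    (hres : (GaloisRepAdic.ofResidualGaloisRep H.ρ.residual).IsOrdinaryAt p)
    (P : MvPolynomial (PrimeIdx S) ℤ)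
    (hP : MvPolynomial.aeval (TfamH (N' := N') (S := S) hN'S) P = 0)
    (hPθ : θ (MvPolynomial.aeval (TfamH hNS) P) ≠ 0) :
    H.ρ.IsStrictOrdinaryAt p := by
  subst hN
  exact Fermat.Agent.GB.B10.Pack.isStrictOrdinaryAt_of_killer_res hp2 hp𝒪
    (exactDvd_mul_self hpN') hside hNS hN'S H hres P hP (isUnit_pi_of_theta_ne_zero H hPθ)

/-- `p = 0` in the residue field. -/
theorem natCast_residueField_eq_zero (hp𝒪 : (p : 𝒪) ∈ maximalIdeal 𝒪) :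
    ((p : ℕ) : IsLocalRing.ResidueField 𝒪) = 0 := by
  have h0 : IsLocalRing.residue 𝒪 (p : 𝒪) = 0 := (IsLocalRing.residue_eq_zero_iff _).2 hp𝒪
  rwa [map_natCast] at h0

/-- **B10' for the eigensystem of a curve**: `θ (T_ℓ) = a_ℓ(W)` (`ℓ ∉ S`) and `W` NOT residually
modular of level `N' = N / p` ⟹ `H.ρ` strictly ordinary at `p` (given `hord`). -/
theorem isStrictOrdinaryAt_of_not_resMod_level [Finite (IsLocalRing.ResidueField 𝒪)] [CharZero 𝒪]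
    (W : WeierstrassCurve ℤ) (hΔ : W.Δ ≠ 0)
    (hN : N = N' * p) (hpN' : ¬ p ∣ N') (hp2 : p ≠ 2) (hp𝒪 : (p : 𝒪) ∈ maximalIdeal 𝒪)
    (hside : p = 3 → 2 ∣ N)
    (hNS : ∀ r : ℕ, r.Prime → r ∣ N → r ∈ S)
    (H : CuspForm.HeckeGaloisRepDatum N (↑S : Set ℕ) 𝒪 θ T)
    (hθ : ∀ (ℓ : ℕ) (hℓ : ℓ.Prime) (hℓN : ¬ ℓ ∣ N) (hℓS : ℓ ∉ (↑S : Set ℕ)),
      θ (heckeAlgebra.T hℓ hℓN hℓS) = ((W.apOfModel ℓ : ℤ) : IsLocalRing.ResidueField 𝒪))
    (hno : ¬ W.IsResiduallyModularOfLevel p N')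
    (hord : H.ρ.IsOrdinaryAt p) :
    H.ρ.IsStrictOrdinaryAt p := by
  have hp : p.Prime := Fact.out
  have hN'S : ∀ r : ℕ, r.Prime → r ∣ N' → r ∈ S := fun r hr hd =>
    hNS r hr (hN ▸ Dvd.dvd.mul_right hd p)
  obtain ⟨P, hP, hPθ⟩ :=
    Fermat.Agent.GB.B10.KillerPlug.exists_killer_of_not_resMod (S := S) W hΔ hp hN'S hno
  have h1 := hPθ N hNS (IsLocalRing.ResidueField 𝒪) θ (natCast_residueField_eq_zero hp𝒪) hθ
  refine isStrictOrdinaryAt_of_killer_level hN hpN' hp2 hp𝒪 hside hNS hN'S H hord P hP ?_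
  rw [h1]
  exact one_ne_zero

/-- the same with `hord` from S33. -/
theorem isStrictOrdinaryAt_of_not_resMod_level_res [Finite (IsLocalRing.ResidueField 𝒪)]
    [CharZero 𝒪] (W : WeierstrassCurve ℤ) (hΔ : W.Δ ≠ 0)
    (hN : N = N' * p) (hpN' : ¬ p ∣ N') (hp2 : p ≠ 2) (hp𝒪 : (p : 𝒪) ∈ maximalIdeal 𝒪)
    (hside : p = 3 → 2 ∣ N)
    (hNS : ∀ r : ℕ, r.Prime → r ∣ N → r ∈ S)
    (H : CuspForm.HeckeGaloisRepDatum N (↑S : Set ℕ) 𝒪 θ T)
    (hθ : ∀ (ℓ : ℕ) (hℓ : ℓ.Prime) (hℓN : ¬ ℓ ∣ N) (hℓS : ℓ ∉ (↑S : Set ℕ)),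
      θ (heckeAlgebra.T hℓ hℓN hℓS) = ((W.apOfModel ℓ : ℤ) : IsLocalRing.ResidueField 𝒪))
    (hno : ¬ W.IsResiduallyModularOfLevel p N')
    (hres : (GaloisRepAdic.ofResidualGaloisRep H.ρ.residual).IsOrdinaryAt p) :
    H.ρ.IsStrictOrdinaryAt p := by
  have hp : p.Prime := Fact.out
  have hpN : p ∣ N := hN ▸ dvd_mul_left p N'
  have hsq : ¬ p ^ 2 ∣ N := by
    rw [hN]
    exact (exactDvd_mul_self hpN').not_sq
  have hord : H.ρ.IsOrdinaryAt p :=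
    Fermat.Agent.GS.Top.Aux3.s33_of_frameNodes hp hp2 hp𝒪 ⟨hpN, hsq⟩ hNS H hres
      (fun N'' _ h'' hside'' =>
        Fermat.Agent.GS.Top.FrameNodeAll.frameNode_all p N'' h'' hp2 hside'')
  exact isStrictOrdinaryAt_of_not_resMod_level W hΔ hN hpN' hp2 hp𝒪 hside hNS H hθ hno hord

end Fermat.Agent.GB.B10.Consumer
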