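/-
GATE-B / B10′ FINAL WIRING (helper32): **`p`-new ⟹ strictly ordinary, with NO geometric binder left.**

`Top.isStrictOrdinaryAt_of_pack` (helper39) is instantiated at the concrete Kummer level data
`KumLevelHecke.levelData`; its binder `hpack` is discharged by

* `ConnM0.connPackage_M0tors_all` (helper30; = the S33 package with `W = M⁰` named), transported to
  `D.K n` along `KumLevelHecke.toTors` (`ConnPackage.comap_addEquiv`);
* N1 on the level data (`FrobSqLevel.frobSq_heckeHom_mem`) and N2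
  (`Phi2.Merge.kumTorsionBy_mem_M0mod`, helper69).

`isStrictOrdinaryAt_of_killer` : for `N = N' * p`, `p ∥ N`, `p` odd (`2 ∣ N` if `p = 3`), a
Hecke–Galois datum `H` at level `N` which is ordinary at `p` with cyclotomic determinant, and an
OLD-KILLER `P` (`P (T^{N'}) = 0`, `H.π (P (T^N))` a unit):  `H.ρ.IsStrictOrdinaryAt p`.
-/
import Fermat.Agent.GB.B10.Top
import Fermat.Agent.GB.B10.ConnM0
import Fermat.Agent.GB.B10.FrobSqLevel
import Fermat.Agent.GB.B10.Phi2.Merge

set_option autoImplicit false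
set_option linter.unusedSectionVars false

noncomputable section

namespace Fermat.Agent.GB.B10.Final

open CuspForm ModularCurve IsLocalRing
open Fermat.Agent.Common_helper32 Fermat.Agent.GJ.Tate Fermat.Agent.GS.Alg.Transfer
open Fermat.Agent.GJ.KumGroup Fermat.Agent.GJ.Kum.KumType
open Fermat.Agent.GK.AL Fermat.Agent.GK.UqKronecker Fermat.Agent.GK.New
open Fermat.Agent.GB.B10.KumLevelHecke Fermat.Agent.GB.B10.ConnM0

local notation "Qb" => AlgebraicClosure ℚ

/-! ### transport of the connected package along an equivariant isomorphism -/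

section Transport

variable {G : Type*} {M M' : Type*} [AddCommGroup M] [AddCommGroup M']

/-- The connected package passes along an equivariant additive isomorphism `e : M' ≃+ M`
(pull-back of `W`). -/
theorem connPackage_comap_addEquiv {I D : Set G} {act : G → M → M} {act' : G → M' → M'}
    (e : M' ≃+ M) (he : ∀ σ x, e (act' σ x) = act σ (e x)) {W : AddSubgroup M}
    (h : ConnPackage I D act W) :
    ConnPackage I D act' (W.comap e.toAddMonoidHom) := by
  refine ⟨fun σ hσ w => ?_, fun σ hσ u => ?_, fun N' hN' w hw hwN' => ?_⟩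
  · show e (act' σ w) ∈ W ↔ e w ∈ W
    rw [he]
    exact h.stab σ hσ (e w)
  · show e (act' σ u - u) ∈ W
    rw [map_sub, he]
    exact h.incr σ hσ (e u)
  · have hmem : e w ∈ N'.map e.toAddMonoidHom := by
      refine h.ce (N'.map e.toAddMonoidHom) ?_ (e w) hw ?_
      · rintro σ hσ _ ⟨u, hu, rfl⟩
        refine ⟨act' σ u, hN' σ hσ u hu, ?_⟩
        exact he σ u
      · intro σ hσ
        refine ⟨act' σ w - w, hwN' σ hσ, ?_⟩
        show e (act' σ w - w) = _
        rw [map_sub, he]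
    obtain ⟨w', hw', hww'⟩ := hmem
    have : w' = w := e.injective hww'
    rw [← this]
    exact hw'

end Transport

/-! ### the final theorem -/

variable {N' p : ℕ} [NeZero N'] [Fact p.Prime] {S : Finset ℕ}
  {𝒪 : Type} [CommRing 𝒪] [IsDomain 𝒪] [IsDiscreteValuationRing 𝒪]
  [IsAdicComplete (IsLocalRing.maximalIdeal 𝒪) 𝒪]
  {θ : CuspForm.heckeAlgebra (N' * p) 2 (↑S : Set ℕ) →+* IsLocalRing.ResidueField 𝒪}
  {T : Type} [CommRing T] [IsLocalRing T] [IsNoetherianRing T]
  [IsAdicComplete (IsLocalRing.maximalIdeal T) T] [Algebra 𝒪 T] [IsLocalHom (algebraMap 𝒪 T)]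
  [Module.Finite 𝒪 T] [Module.Free 𝒪 T]

/-- the instance `NeZero p` from `Fact p.Prime` (local). -/
local instance neZero_of_fact'' : NeZero p := ⟨(Fact.out : p.Prime).ne_zero⟩

/-- **B10′, final form**: `p ∥ N = N' p`, old-killer `P` at level `N'` ⟹ strictly ordinary. -/
theorem isStrictOrdinaryAt_of_killer [Finite (IsLocalRing.ResidueField 𝒪)] [CharZero 𝒪]
    (h : ExactDvd p (N' * p)) (hp2 : p ≠ 2) (hside : p = 3 → 2 ∣ N' * p)
    (hp𝒪 : (p : 𝒪) ∈ maximalIdeal 𝒪) (hpS : p ∈ S)
    (hNS : ∀ r : ℕ, r.Prime → r ∣ N' * p → r ∈ S) (hN'S : ∀ r : ℕ, r.Prime → r ∣ N' → r ∈ S)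
    (H : CuspForm.HeckeGaloisRepDatum (N' * p) (↑S : Set ℕ) 𝒪 θ T)
    (hdet : H.ρ.DetIsCyclotomic p) (hord : H.ρ.IsOrdinaryAt p)
    (P : MvPolynomial (PrimeIdx S) ℤ)
    (hP : MvPolynomial.aeval (TfamH (N' := N') (S := S) hN'S) P = 0)
    (hPθ : IsUnit (H.π (MvPolynomial.aeval (TfamH hNS) P))) :
    H.ρ.IsStrictOrdinaryAt p := by
  have hp : p.Prime := Fact.out
  refine Fermat.Agent.GB.B10.Top.isStrictOrdinaryAt_of_pack (levelData p (N' * p) hpS hNS)
    (levelData_comm p (N' * p) hpS hNS) hp hp2 hp𝒪 hpS hNS H hdet hord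
    (MvPolynomial.aeval (TfamH hNS) P) hPθ fun A hA n => ?_
  refine ⟨(M0tors A h n).comap (toTors p (N' * p) hpS hNS n).toAddMonoidHom,
    connPackage_comap_addEquiv (toTors p (N' * p) hpS hNS n)
      (fun σ x => toTors_gal p (N' * p) hpS hNS n σ x)
      (connPackage_M0tors_all hp2 h hside A hA n), ?_⟩
  intro τ hτ x
  have hτ' : A.IsFrobeniusAt τ p := hτ
  have key := Fermat.Agent.GB.B10.FrobSqLevel.frobSq_heckeHom_mem h hpS hNS hN'S hA hτ' P hP n x
  have hM := Fermat.Agent.GB.B10.Phi2.Merge.kumTorsionBy_mem_M0mod h hA (p := p) n key.1 key.2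
  exact hM

end Fermat.Agent.GB.B10.Final
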