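/-
GATE-B / B10' (p-new ⟹ strict ordinary), node N2 = Step 3 of helper39's graph (board 5602), bridge
(helper71, second seat of helper69; split per helper32 5649):

  **`kerRed N A m ⊓ kerRed₂ h A m` lands in `M⁰_m`** — for EVERY modulus `m ≠ 0`, in particular
  `m = p ^ k` at `A ∣ p ∥ N` (residue characteristic = torsion characteristic).

The approximation half (one representative with BOTH reductions equal to `1`, the two constants
equalised through an `m`-th root and weak approximation with an archimedean value group) is ALREADY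
ON MAIN, `m`-agnostic: helper40's `GK/SS/FrobSqMod.exists_goodUnit_rep`
(`GK/MultiVal/{PrinRep,PrinAdjust}`, `GK/SS/FrobSqKer2`).  What is added here is the last plug into
helper30's `GS/F/Modular.M0mod` through the Kummer isomorphism `kummerEquivFK`, and the converse.

* `mem_M0mod_of_mem_kerRed_inf` : `x ∈ kerRed ⊓ kerRed₂ ⟹ kummerEquivFK x ∈ M0mod N A h m`
  (the converse inclusion is in `GB/B10/KerM0Conv.lean`).
-/
import Mathlib
import Fermat.Agent.GK.SS.FrobSqMod
import Fermat.Agent.GS.F.Modular

set_option autoImplicit false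
set_option linter.unusedSectionVars false

noncomputable section

namespace Fermat.Agent.GB.B10.KerM0Bridge

open AlgebraicCurve ModularCurve IsLocalRing
open Fermat.Agent.GJ.J1 Fermat.Agent.GJ.J1.Val Fermat.Agent.GJ.Kum Fermat.Agent.GJ.KumGroup
open Fermat.Agent.GJ.Kum.KumType Fermat.Agent.GK.Tate
open Fermat.Agent.GK.UqKronecker Fermat.Agent.GK.MultiVal Fermat.Agent.GK.AL Fermat.Agent.GK.SS
open Fermat.Agent.GH.KummerPic Fermat.Agent.GH.KummerEquivariant Fermat.Agent.GH.TorsionCount
open Fermat.Agent.GS.F

/-- `ℚ̄`. -/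
local notation "Qb" => AlgebraicClosure ℚ

variable {N : ℕ} [NeZero N] {q : ℕ} {h : ExactDvd q N} {A : ValuationSubring Qb}

/-- **Step 3 of B10'**: a Kummer class killed by both reductions is a class of `M⁰_m`. -/
theorem mem_M0mod_of_mem_kerRed_inf (hA : A.LiesOverPrime q) {m : ℕ} [NeZero m]
    {x : Additive (Kum Qb (FK N) m)} (hx1 : x ∈ kerRed N A m) (hx2 : x ∈ kerRed₂ h A m) :
    ((kummerEquivFK N m x : Pic0.torsion Qb (FK N) m) : JZero N) ∈ M0mod N A h m := by
  have := hasPrincipalDivisors_FK N
  obtain ⟨u, hu, -, -, rfl⟩ := exists_goodUnit_rep h hA (NeZero.ne m) hx1 hx2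
  rw [coe_kummerEquivFK_mk]
  exact mem_M0.2 ⟨u, hu, kum0_apply m u⟩

end Fermat.Agent.GB.B10.KerM0Bridge
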